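import Mathlib

/-!
# Kummer's approach to FLT for `p` with `ℤ[ζ_p]` a PID: shared definitions
-/

set_option autoImplicit false

open NumberField

namespace Fermat.Agent.Kummer

/-- Instance search finds `DivisionRing.toRatAlgebra` as the `ℚ`-algebra structure on
`CyclotomicField p ℚ`, for which Mathlib's instance is not found at reducible transparency. -/
instance instIsCyclotomicExtensionRat (p : ℕ) [NeZero p] :
    @IsCyclotomicExtension {p} ℚ (CyclotomicField p ℚ) _ _ DivisionRing.toRatAlgebra :=
  CyclotomicField.isCyclotomicExtension p ℚ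

/-- Kummer's lemma for the exponent `p` and the (cyclotomic) field `K`, as a proposition:
a unit of `𝓞 K` congruent to a rational integer modulo `p` is a `p`-th power of a unit. -/
def KummerLemma (p : ℕ) (K : Type) [Field K] [NumberField K] : Prop :=
  ∀ u : (𝓞 K)ˣ, (∃ n : ℤ, (p : 𝓞 K) ∣ (u : 𝓞 K) - (n : 𝓞 K)) → ∃ v : (𝓞 K)ˣ, u = v ^ p

/-- The two inputs needed for Kummer's proof of FLT for exponent `p` in the class number one
case. -/
structure GoodPrime (p : ℕ) : Prop where
  prime : p.Prime
  five_le : 5 ≤ p
  pid : IsPrincipalIdealRing (𝓞 (CyclotomicField p ℚ))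
  kummer : KummerLemma p (CyclotomicField p ℚ)

end Fermat.Agent.Kummer
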