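import Mathlib
import Fermat.Agent.Kummer.Defs

/-!
# Basic facts on the ring of integers of the `p`-th cyclotomic field (shared by the Kummer files)
-/

set_option autoImplicit false

open NumberField Polynomial Finset

namespace Fermat.Agent.Kummer

variable {p : ℕ} [hp : Fact p.Prime] {K : Type*} [Field K] [NumberField K]
  [IsCyclotomicExtension {p} ℚ K] {ζ : K} (hζ : IsPrimitiveRoot ζ p)

/-- (L1) `x ^ p` is congruent to a rational integer modulo `p`. -/
theorem exists_int_dvd_pow_sub (x : 𝓞 K) : ∃ m : ℤ, (p : 𝓞 K) ∣ x ^ p - (m : 𝓞 K) := by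
  have hζ := IsCyclotomicExtension.zeta_spec p ℚ K
  have htop := IsCyclotomicExtension.Rat.adjoin_singleton_eq_top hζ
  have hx : x ∈ Algebra.adjoin ℤ {hζ.toInteger} := by rw [htop]; trivial
  induction hx using Algebra.adjoin_induction with
  | mem y hy =>
    rw [Set.mem_singleton_iff] at hy
    refine ⟨1, ?_⟩
    rw [hy, hζ.toInteger_isPrimitiveRoot.pow_eq_one]
    simp
  | algebraMap r =>
    refine ⟨r ^ p, ?_⟩
    simp
  | add y z _ _ hy hz =>
    obtain ⟨m, hm⟩ := hy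
    obtain ⟨n, hn⟩ := hz
    obtain ⟨r, hr⟩ := exists_add_pow_prime_eq hp.out y z
    refine ⟨m + n, ?_⟩
    rw [hr]
    have : y ^ p + z ^ p + (p : 𝓞 K) * y * z * r - ((m + n : ℤ) : 𝓞 K) =
        (y ^ p - m) + (z ^ p - n) + (p : 𝓞 K) * (y * z * r) := by push_cast; ring
    rw [this]
    exact dvd_add (dvd_add hm hn) (dvd_mul_right _ _)
  | mul y z _ _ hy hz =>
    obtain ⟨m, hm⟩ := hy
    obtain ⟨n, hn⟩ := hz
    refine ⟨m * n, ?_⟩
    have : (y * z) ^ p - ((m * n : ℤ) : 𝓞 K) = (y ^ p - m) * z ^ p + m * (z ^ p - n) := by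
      push_cast; ring
    rw [this]
    exact dvd_add (Dvd.dvd.mul_right hm _) (Dvd.dvd.mul_left hn _)

/-- (L2) every element is congruent to a rational integer modulo `ζ - 1`. -/
theorem exists_int_zeta_sub_one_dvd_sub (x : 𝓞 K) :
    ∃ m : ℤ, hζ.toInteger - 1 ∣ x - (m : 𝓞 K) := by
  have htop := IsCyclotomicExtension.Rat.adjoin_singleton_eq_top hζ
  have hx : x ∈ Algebra.adjoin ℤ {hζ.toInteger} := by rw [htop]; trivial
  induction hx using Algebra.adjoin_induction with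
  | mem y hy =>
    rw [Set.mem_singleton_iff] at hy
    exact ⟨1, by rw [hy]; simp⟩
  | algebraMap r => exact ⟨r, by simp⟩
  | add y z _ _ hy hz =>
    obtain ⟨m, hm⟩ := hy
    obtain ⟨n, hn⟩ := hz
    refine ⟨m + n, ?_⟩
    have : y + z - ((m + n : ℤ) : 𝓞 K) = (y - m) + (z - n) := by push_cast; ring
    rw [this]
    exact dvd_add hm hn
  | mul y z _ _ hy hz =>
    obtain ⟨m, hm⟩ := hy
    obtain ⟨n, hn⟩ := hz
    refine ⟨m * n, ?_⟩
    have : y * z - ((m * n : ℤ) : 𝓞 K) = (y - m) * z + m * (z - n) := by push_cast; ring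
    rw [this]
    exact dvd_add (Dvd.dvd.mul_right hm _) (Dvd.dvd.mul_left hn _)

/-- `ζ - 1` divides a rational integer iff `p` does. -/
theorem zeta_sub_one_dvd_intCast_iff (hodd : p ≠ 2) (n : ℤ) :
    hζ.toInteger - 1 ∣ (n : 𝓞 K) ↔ (p : ℤ) ∣ n := by
  rw [← Ideal.norm_dvd_iff (hζ.prime_norm_toInteger_sub_one_of_prime_ne_two' hodd),
    hζ.norm_toInteger_sub_one_of_prime_ne_two' hodd]

/-- `p` divides a rational integer in `𝓞 K` iff it does in `ℤ`. -/
theorem natCast_dvd_intCast_iff (hodd : p ≠ 2) (n : ℤ) :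
    (p : 𝓞 K) ∣ (n : 𝓞 K) ↔ (p : ℤ) ∣ n := by
  have hζ := IsCyclotomicExtension.zeta_spec p ℚ K
  constructor
  · intro h
    exact (zeta_sub_one_dvd_intCast_iff hζ hodd n).1 (hζ.toInteger_sub_one_dvd_prime'.trans h)
  · rintro ⟨k, rfl⟩
    exact ⟨k, by push_cast; ring⟩

/-- coordinates: if `m` divides `∑_{j < p - 1} g j * ζ ^ j` then `m` divides all `g j`. -/
theorem dvd_coeff_of_dvd_sum_pred (g : ℕ → ℤ) (m : ℤ)
    (h : (m : 𝓞 K) ∣ ∑ j ∈ range (p - 1), (g j : 𝓞 K) * hζ.toInteger ^ j) :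
    ∀ j < p - 1, m ∣ g j := by
  intro j hj
  obtain ⟨y, hy⟩ := h
  let pB := hζ.integralPowerBasis
  have hdim : pB.dim = p - 1 := by
    rw [hζ.integralPowerBasis_dim, Nat.totient_prime hp.out]
  have hsum : ∑ i ∈ range (p - 1), (g i : 𝓞 K) * hζ.toInteger ^ i =
      ∑ i : Fin pB.dim, g i • pB.basis i := by
    rw [← hdim, ← Fin.sum_univ_eq_sum_range (fun i => (g i : 𝓞 K) * hζ.toInteger ^ i)]
    refine Finset.sum_congr rfl fun i _ => ?_
    rw [pB.basis_eq_pow, hζ.integralPowerBasis_gen, zsmul_eq_mul]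
  have h1 := congrArg (fun z => pB.basis.repr z ⟨j, hdim ▸ hj⟩) hy
  simp only [hsum] at h1
  rw [pB.basis.repr_sum_self] at h1
  have h2 : (m : 𝓞 K) * y = m • y := by rw [zsmul_eq_mul]
  rw [h2, map_smul, Finsupp.smul_apply, smul_eq_mul] at h1
  exact ⟨_, h1⟩

omit [NumberField K] [IsCyclotomicExtension {p} ℚ K] in
/-- the sum of all `p`-th roots of unity vanishes -/
theorem sum_range_zeta_pow : ∑ j ∈ range p, hζ.toInteger ^ j = 0 :=
  hζ.toInteger_isPrimitiveRoot.geom_sum_eq_zero hp.out.one_lt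

/-- (L4) if `m ∣ ∑_{j < p} f j * ζ ^ j` and some `f i = 0` then `m` divides all `f j`. -/
theorem dvd_coeff_of_dvd_sum (f : ℕ → ℤ) (m : ℤ) (hf : ∃ i < p, f i = 0)
    (h : (m : 𝓞 K) ∣ ∑ j ∈ range p, (f j : 𝓞 K) * hζ.toInteger ^ j) :
    ∀ j < p, m ∣ f j := by
  have hp1 : p - 1 + 1 = p := Nat.sub_add_cancel hp.out.one_le
  have hr : range p = range (p - 1 + 1) := by rw [hp1]
  have hlast : hζ.toInteger ^ (p - 1) = - ∑ j ∈ range (p - 1), hζ.toInteger ^ j := by
    have := sum_range_zeta_pow hζ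
    rw [hr, Finset.sum_range_succ] at this
    exact eq_neg_of_add_eq_zero_right this
  have hsum : ∑ j ∈ range p, (f j : 𝓞 K) * hζ.toInteger ^ j =
      ∑ j ∈ range (p - 1), ((f j - f (p - 1) : ℤ) : 𝓞 K) * hζ.toInteger ^ j := by
    rw [hr, Finset.sum_range_succ, hlast]
    rw [mul_neg, Finset.mul_sum, ← sub_eq_add_neg, ← Finset.sum_sub_distrib]
    refine Finset.sum_congr rfl fun j _ => ?_
    push_cast; ring
  rw [hsum] at h
  have key := dvd_coeff_of_dvd_sum_pred hζ (fun j => f j - f (p - 1)) m h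
  have hl : m ∣ f (p - 1) := by
    obtain ⟨i, hi, hi0⟩ := hf
    by_cases hip : i = p - 1
    · rw [← hip, hi0]; exact dvd_zero _
    · have := key i (by omega)
      simp only [hi0, zero_sub] at this
      exact (dvd_neg).1 this
  intro j hj
  by_cases hjp : j = p - 1
  · rw [hjp]; exact hl
  · have := key j (by omega)
    simpa using dvd_add this hl

end Fermat.Agent.Kummer
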