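import Fermat.Agent.Kummer.Conj

/-!
# Case I of Fermat's Last Theorem for `p` with `ℤ[ζ_p]` a PID (Kummer)
-/

set_option autoImplicit false

open NumberField Polynomial Finset

namespace Fermat.Agent.Kummer

/-- Core of case I: `a ≡ b mod p` (general cyclotomic field). -/
theorem caseI_core_aux {p : ℕ} [hpF : Fact p.Prime] (hp5 : 5 ≤ p) (K : Type*) [Field K]
    [NumberField K] [IsCyclotomicExtension {p} ℚ K] [IsPrincipalIdealRing (𝓞 K)]
    {a b c : ℤ} (hab : IsCoprime a b)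
    (hpa : ¬ (p : ℤ) ∣ a) (hpb : ¬ (p : ℤ) ∣ b) (hpc : ¬ (p : ℤ) ∣ c)
    (H : a ^ p + b ^ p = c ^ p) : (p : ℤ) ∣ a - b := by
  classical
  have h : p.Prime ∧ True := ⟨hpF.out, trivial⟩
  have hodd : p ≠ 2 := by omega
  have hodd' : Odd p := h.1.odd_of_ne_two hodd
  have hζ := IsCyclotomicExtension.zeta_spec p ℚ K
  set z : 𝓞 K := hζ.toInteger with hzdef
  have hz : IsPrimitiveRoot z p := hζ.toInteger_isPrimitiveRoot
  have hlam : Prime (z - 1) := hζ.zeta_sub_one_prime'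
  have hH : (a : 𝓞 K) ^ p + (b : 𝓞 K) ^ p = (c : 𝓞 K) ^ p := by exact_mod_cast congrArg (Int.cast : ℤ → 𝓞 K) H
  have hprod := hz.pow_add_pow_eq_prod_add_mul (a : 𝓞 K) (b : 𝓞 K) hodd'
  have hzmem : z ∈ nthRootsFinset p (1 : 𝓞 K) := hz.mem_nthRootsFinset h.1.pos
  rw [← Finset.mul_prod_erase _ _ hzmem, hH] at hprod
  have hc0 : (c : 𝓞 K) ≠ 0 := by
    intro hc
    have : c = 0 := by exact_mod_cast hc
    exact hpc (this ▸ dvd_zero _)
  have hnotdvd : ¬ (z - 1) ∣ (a : 𝓞 K) + z * b := by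
    intro hd
    have h1 : z - 1 ∣ (c : 𝓞 K) ^ p := hprod ▸ Dvd.dvd.mul_right hd _
    have h2 := hlam.dvd_of_dvd_pow h1
    exact hpc ((zeta_sub_one_dvd_intCast_iff hζ hodd c).1 h2)
  have hcop : IsCoprime ((a : 𝓞 K) + z * b)
      (∏ η ∈ (nthRootsFinset p (1 : 𝓞 K)).erase z, ((a : 𝓞 K) + η * b)) := by
    refine IsCoprime.prod_right fun η hη => ?_
    have hηz : η ≠ z := (Finset.mem_erase.1 hη).1
    have hηmem : η ∈ nthRootsFinset p (1 : 𝓞 K) := (Finset.mem_erase.1 hη).2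
    apply isCoprime_of_prime_dvd
    · rintro ⟨h0, -⟩
      exact hnotdvd (h0 ▸ dvd_zero _)
    · intro π hπ h1 h2
      have d1 : π ∣ (z - η) * b := by
        have : (z - η) * b = ((a : 𝓞 K) + z * b) - ((a : 𝓞 K) + η * b) := by ring
        rw [this]; exact dvd_sub h1 h2
      have d2 : π ∣ (z - η) * a := by
        have : (z - η) * a = z * ((a : 𝓞 K) + η * b) - η * ((a : 𝓞 K) + z * b) := by ring
        rw [this]; exact dvd_sub (Dvd.dvd.mul_left h2 _) (Dvd.dvd.mul_left h1 _)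
      by_cases hπl : π ∣ z - η
      · have hass : Associated (z - 1) (z - η) :=
          hz.nthRootsFinset_pairwise_associated_sub_one_sub_of_prime h.1 hzmem hηmem
            (Ne.symm hηz)
        have h3 : π ∣ z - 1 := hπl.trans hass.symm.dvd
        have h4 : Associated π (z - 1) := hπ.associated_of_dvd hlam h3
        exact hnotdvd (h4.symm.dvd.trans h1)
      · have hb : π ∣ (b : 𝓞 K) := (hπ.dvd_or_dvd d1).resolve_left hπl
        have ha : π ∣ (a : 𝓞 K) := (hπ.dvd_or_dvd d2).resolve_left hπl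
        obtain ⟨s, t, hst⟩ := hab
        have h1' : (s : 𝓞 K) * a + t * b = 1 := by exact_mod_cast congrArg (Int.cast : ℤ → 𝓞 K) hst
        have : π ∣ 1 := h1' ▸ dvd_add (Dvd.dvd.mul_left ha _) (Dvd.dvd.mul_left hb _)
        exact hπ.not_isUnit (isUnit_of_dvd_one this)
  obtain ⟨α, u, hu⟩ := exists_associated_pow_of_mul_eq_pow' hcop hprod.symm
  obtain ⟨σ, hσz, hσu⟩ := exists_conj hζ hodd
  obtain ⟨j, hj, huj⟩ := hσu u
  obtain ⟨m, hm⟩ := exists_int_dvd_pow_sub (p := p) (K := K) α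
  have hm' : (p : 𝓞 K) ∣ σ (α ^ p) - (m : 𝓞 K) := by
    have := map_dvd σ hm
    rwa [map_sub, map_natCast, map_intCast] at this
  have key : (p : 𝓞 K) ∣ ((a : 𝓞 K) + z * b) - z ^ j * σ ((a : 𝓞 K) + z * b) := by
    rw [← hu, map_mul]
    generalize σ (u : 𝓞 K) = V at huj
    have e : α ^ p * (u : 𝓞 K) - z ^ j * (σ (α ^ p) * V) =
        z ^ j * V * ((α ^ p - m) - (σ (α ^ p) - m)) := by rw [huj]; ring
    rw [e]
    exact Dvd.dvd.mul_left (dvd_sub hm hm') _
  rw [map_add, map_mul, map_intCast, map_intCast, hσz] at key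
  set k₂ : ℕ := (j + (p - 1)) % p with hk₂
  have hk₂lt : k₂ < p := Nat.mod_lt _ h.1.pos
  have hzk : z ^ j * z ^ (p - 1) = z ^ k₂ := by
    rw [← pow_add, pow_eq_pow_mod _ hz.pow_eq_one]
  let f : ℕ → ℤ := fun i => (if i = 0 then a else 0) + (if i = 1 then b else 0)
    - (if i = j then a else 0) - (if i = k₂ then b else 0)
  have hsum : ∑ i ∈ range p, (f i : 𝓞 K) * z ^ i =
      ((a : 𝓞 K) + z * b) - z ^ j * ((a : 𝓞 K) + z ^ (p - 1) * b) := by
    have e : z ^ j * ((a : 𝓞 K) + z ^ (p - 1) * b) = a * z ^ j + b * z ^ k₂ := by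
      rw [← hzk]; ring
    rw [e]
    have h0 : 0 < p := h.1.pos
    have h1 : 1 < p := h.1.one_lt
    simp only [f, Int.cast_sub, Int.cast_add, Int.cast_ite, Int.cast_zero, sub_mul, add_mul,
      ite_mul, zero_mul, Finset.sum_sub_distrib, Finset.sum_add_distrib, Finset.sum_ite_eq',
      Finset.mem_range, h0, h1, hj, hk₂lt, if_true, pow_zero, pow_one, mul_one]
    ring
  rw [← hsum] at key
  have hex : ∃ i < p, f i = 0 := by
    have hcard : ({0, 1, j, k₂} : Finset ℕ).card < (range 5).card := by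
      rw [card_range]
      exact lt_of_le_of_lt (Finset.card_le_four) (by norm_num)
    obtain ⟨i, hi5, hi⟩ := Finset.exists_mem_notMem_of_card_lt_card hcard
    simp only [Finset.mem_insert, Finset.mem_singleton, not_or] at hi
    refine ⟨i, lt_of_lt_of_le (Finset.mem_range.1 hi5) hp5, ?_⟩
    simp [f, hi.1, hi.2.1, hi.2.2.1, hi.2.2.2]
  have hdvd := dvd_coeff_of_dvd_sum hζ f (p : ℤ) hex (by simpa using key)
  have hd0 := hdvd 0 h.1.pos
  have hd1 := hdvd 1 h.1.one_lt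
  by_cases hj0 : j = 0
  · exfalso
    have hk : k₂ = p - 1 := by rw [hk₂, hj0, zero_add]; exact Nat.mod_eq_of_lt (by omega)
    have : f 1 = b := by
      have h1 : (1 : ℕ) ≠ j := by omega
      have h2 : (1 : ℕ) ≠ k₂ := by omega
      simp [f, h1, h2]
    exact hpb (this ▸ hd1)
  · have hk : k₂ = j - 1 := by
      rw [hk₂, show j + (p - 1) = (j - 1) + p by omega, Nat.add_mod_right]
      exact Nat.mod_eq_of_lt (by omega)
    by_cases hj1 : j = 1
    · have : f 0 = a - b := by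
        have h1 : (0 : ℕ) ≠ j := by omega
        have h2 : (0 : ℕ) = k₂ := by omega
        simp [f, h1, ← h2]
      exact this ▸ hd0
    · exfalso
      have : f 0 = a := by
        have h1 : (0 : ℕ) ≠ j := by omega
        have h2 : (0 : ℕ) ≠ k₂ := by omega
        simp [f, h1, h2]
      exact hpa (this ▸ hd0)

/-- Core of case I: `a ≡ b mod p`. -/
theorem caseI_core {p : ℕ} (h : GoodPrime p) {a b c : ℤ} (hab : IsCoprime a b)
    (hpa : ¬ (p : ℤ) ∣ a) (hpb : ¬ (p : ℤ) ∣ b) (hpc : ¬ (p : ℤ) ∣ c)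
    (H : a ^ p + b ^ p = c ^ p) : (p : ℤ) ∣ a - b := by
  have : Fact p.Prime := ⟨h.prime⟩
  have := h.pid
  have : IsCyclotomicExtension {p} ℚ (CyclotomicField p ℚ) :=
    CyclotomicField.isCyclotomicExtension p ℚ
  exact caseI_core_aux h.five_le (CyclotomicField p ℚ) hab hpa hpb hpc H

/-- **Case I** of Fermat's Last Theorem for a good prime. -/
theorem caseI {p : ℕ} (h : GoodPrime p) {a b c : ℤ} (hab : IsCoprime a b)
    (hp : ¬ (p : ℤ) ∣ a * b * c) : a ^ p + b ^ p ≠ c ^ p := by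
  intro H
  have : Fact p.Prime := ⟨h.prime⟩
  have hp5 := h.five_le
  have hodd' : Odd p := h.prime.odd_of_ne_two (by omega)
  have hpa : ¬ (p : ℤ) ∣ a := fun hd => hp (Dvd.dvd.mul_right (Dvd.dvd.mul_right hd _) _)
  have hpb : ¬ (p : ℤ) ∣ b := fun hd => hp (Dvd.dvd.mul_right (Dvd.dvd.mul_left hd _) _)
  have hpc : ¬ (p : ℤ) ∣ c := fun hd => hp (Dvd.dvd.mul_left hd _)
  have h1 := caseI_core h hab hpa hpb hpc H
  have hac : IsCoprime a (-c) := by
    rw [IsCoprime.neg_right_iff, ← IsCoprime.pow_right_iff h.prime.pos, ← H]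
    have h2 : IsCoprime a (b ^ p) := hab.pow_right
    have h3 : a ^ p + b ^ p = b ^ p + a * a ^ (p - 1) := by
      rw [← pow_succ', Nat.sub_add_cancel h.prime.one_le]; ring
    rw [h3]
    exact h2.add_mul_left_right _
  have H' : a ^ p + (-c) ^ p = (-b) ^ p := by
    rw [hodd'.neg_pow, hodd'.neg_pow, ← H]; ring
  have h2 := caseI_core h hac hpa (by rwa [dvd_neg]) (by rwa [dvd_neg]) H'
  -- now `a ≡ b`, `a ≡ -c`, and `a + b ≡ c` modulo `p`
  have e1 : (a : ZMod p) = b := by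
    rw [← sub_eq_zero]
    exact_mod_cast (ZMod.intCast_zmod_eq_zero_iff_dvd (a - b) p).2 h1
  have e2 : (a : ZMod p) = -c := by
    rw [← sub_eq_zero]
    have := (ZMod.intCast_zmod_eq_zero_iff_dvd (a - -c) p).2 h2
    push_cast at this
    exact this
  have e3 : (a : ZMod p) + b = c := by
    have := congrArg (Int.cast : ℤ → ZMod p) H
    push_cast at this
    rwa [ZMod.pow_card, ZMod.pow_card, ZMod.pow_card] at this
  have e4 : ((3 * a : ℤ) : ZMod p) = 0 := by
    push_cast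
    have : (c : ZMod p) = -a := by rw [e2, neg_neg]
    rw [← e1, this] at e3
    linear_combination e3
  rw [ZMod.intCast_zmod_eq_zero_iff_dvd] at e4
  have hpp : Prime (p : ℤ) := Nat.prime_iff_prime_int.mp h.prime
  rcases hpp.dvd_or_dvd e4 with h3 | h3
  · have := Int.le_of_dvd (by norm_num) h3
    omega
  · exact hpa h3

end Fermat.Agent.Kummer
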