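import Fermat.Agent.Kummer.Defs

/-!
# Kummer's proof of the second case of FLT (class number one version)

We first work in an abstract setting (`Setting`): a principal ideal domain `R` with a primitive
`p`-th root of unity `z` such that `z - 1` is prime, `(z - 1) ^ (p - 1)` is associated to `p`,
every element is congruent to a rational integer modulo `z - 1`, and Kummer's lemma holds.
-/

set_option autoImplicit false
set_option linter.unusedSectionVars false

open NumberField Polynomial Finset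

namespace Fermat.Agent.Kummer.CaseII

/-- The abstract setting of Kummer's descent. -/
structure Setting {R : Type*} [CommRing R] (p : ℕ) (z : R) : Prop where
  prime : p.Prime
  ne_two : p ≠ 2
  prim : IsPrimitiveRoot z p
  lam_prime : Prime (z - 1)
  assoc : Associated ((z - 1) ^ (p - 1)) (p : R)
  int_mod : ∀ x : R, ∃ n : ℤ, (z - 1) ∣ x - (n : R)
  kummer : ∀ u : Rˣ, (∃ n : ℤ, (p : R) ∣ (u : R) - (n : R)) → ∃ v : Rˣ, u = v ^ p

variable {R : Type*} [CommRing R] [IsDomain R] {p : ℕ} {z : R}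

/-- In a Bezout domain, if a product of pairwise coprime elements is associated to a `k`-th power,
so is every factor. -/
lemma exists_associated_pow_of_prod {A ι : Type*} [CommRing A]
    [IsDomain A] [IsBezout A] [DecidableEq ι] (T : Finset ι) (f : ι → A)
    (hcop : ∀ i ∈ T, ∀ j ∈ T, i ≠ j → IsCoprime (f i) (f j)) (c : A) (k : ℕ)
    (h : Associated (c ^ k) (∏ i ∈ T, f i)) {i : ι} (hi : i ∈ T) :
    ∃ d : A, Associated (d ^ k) (f i) := by
  rw [← Finset.mul_prod_erase T f hi] at h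
  refine exists_associated_pow_of_associated_pow_mul (IsCoprime.prod_right fun j hj => ?_) h
  exact hcop i hi j (Finset.mem_of_mem_erase hj) (Finset.ne_of_mem_erase hj).symm

namespace Setting

variable (S : Setting p z)
include S

lemma lam_dvd_p : z - 1 ∣ (p : R) :=
  S.prim.sub_one_dvd_natCast S.prime.one_lt

lemma p_dvd_lam_pow : (p : R) ∣ (z - 1) ^ p :=
  S.assoc.symm.dvd.trans (pow_dvd_pow _ (Nat.sub_le _ _))

lemma one_mem : (1 : R) ∈ nthRootsFinset p (1 : R) :=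
  (mem_nthRootsFinset S.prime.pos 1).2 (one_pow _)

lemma pow_mem (i : ℕ) : z ^ i ∈ nthRootsFinset p (1 : R) := by
  rw [mem_nthRootsFinset S.prime.pos 1, ← pow_mul, mul_comm, pow_mul, S.prim.pow_eq_one, one_pow]

lemma lam_dvd_sub_one {η : R} (hη : η ∈ nthRootsFinset p (1 : R)) : z - 1 ∣ η - 1 :=
  S.prim.sub_one_dvd_sub S.prime hη S.one_mem

lemma card_roots : (nthRootsFinset p (1 : R)).card = p := S.prim.card_nthRootsFinset

lemma odd : Odd p := S.prime.odd_of_ne_two S.ne_two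

/-- `x ≡ y mod λ` implies `x ^ p ≡ y ^ p mod λ ^ p`. -/
lemma pow_congr {x y : R} (h : z - 1 ∣ x - y) : (z - 1) ^ p ∣ x ^ p - y ^ p := by
  rw [S.prim.pow_sub_pow_eq_prod_sub_mul x y S.prime.pos]
  conv_lhs => rw [← S.card_roots, ← Finset.prod_const]
  refine Finset.prod_dvd_prod_of_dvd _ _ fun η hη => ?_
  have : x - η * y = (x - y) - (η - 1) * y := by ring
  rw [this]
  exact dvd_sub h ((S.lam_dvd_sub_one hη).mul_right _)

/-- an element prime to `λ` has an integer inverse modulo `λ`. -/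
lemma exists_int_inv {b : R} (hb : ¬ z - 1 ∣ b) : ∃ k : ℤ, z - 1 ∣ b * (k : R) - 1 := by
  obtain ⟨n, hn⟩ := S.int_mod b
  have hpn : ¬ (p : ℤ) ∣ n := by
    rintro ⟨c, rfl⟩
    apply hb
    have h1 : z - 1 ∣ (((p : ℤ) * c : ℤ) : R) := by
      push_cast
      exact S.lam_dvd_p.mul_right _
    simpa using dvd_add hn h1
  have hcop : IsCoprime (p : ℤ) n :=
    ((Nat.prime_iff_prime_int.mp S.prime).coprime_iff_not_dvd).2 hpn
  obtain ⟨u, v, huv⟩ := hcop
  refine ⟨v, ?_⟩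
  have h2 : (u : R) * (p : R) + (v : R) * (n : R) = 1 := by exact_mod_cast congrArg (Int.cast : ℤ → R) huv
  have : b * (v : R) - 1 = (b - n) * v - u * p := by linear_combination h2
  rw [this]
  exact dvd_sub (hn.mul_right _) (S.lam_dvd_p.mul_left _)

/-- The key congruence feeding Kummer's lemma. -/
lemma unit_congr_int {a b : R} {η : Rˣ} (hb : ¬ z - 1 ∣ b)
    (h : (z - 1) ^ p ∣ a ^ p + η * b ^ p) : ∃ n : ℤ, (p : R) ∣ (η : R) - (n : R) := by
  obtain ⟨k, hk⟩ := S.exists_int_inv hb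
  obtain ⟨n, hn⟩ := S.int_mod (a * k)
  have h1 := S.pow_congr hk
  have h2 := S.pow_congr hn
  refine ⟨-n ^ p, S.p_dvd_lam_pow.trans ?_⟩
  have : (η : R) - ((-n ^ p : ℤ) : R) =
      (a ^ p + η * b ^ p) * (k : R) ^ p - η * ((b * k) ^ p - 1 ^ p) - ((a * k) ^ p - (n : R) ^ p) := by
    push_cast
    ring
  rw [this]
  exact dvd_sub (dvd_sub (h.mul_right _) (h1.mul_left _)) h2

lemma geom_sum_congr (i : ℕ) : z - 1 ∣ (∑ j ∈ range i, z ^ j) - (i : R) := by
  have : (∑ j ∈ range i, z ^ j) - (i : R) = ∑ j ∈ range i, (z ^ j - 1) := by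
    simp [Finset.sum_sub_distrib]
  rw [this]
  exact Finset.dvd_sum fun j _ => by simpa using sub_dvd_pow_sub_pow z 1 j

/-- Some `x + z ^ i * y` is divisible by `λ ^ 2`. -/
lemma exists_sq_dvd {x y : R} (hy : ¬ z - 1 ∣ y) (h : z - 1 ∣ x + y) :
    ∃ i : ℕ, (z - 1) ^ 2 ∣ x + z ^ i * y := by
  obtain ⟨t, ht⟩ := h
  obtain ⟨k, hk⟩ := S.exists_int_inv hy
  obtain ⟨n, hn⟩ := S.int_mod t
  -- want `i ≡ - n k mod p`
  have hp0 : (p : ℤ) ≠ 0 := by exact_mod_cast S.prime.ne_zero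
  set i : ℕ := ((-n * k) % (p : ℤ)).toNat with hi
  have hi' : (i : ℤ) = (-n * k) % (p : ℤ) := Int.toNat_of_nonneg (Int.emod_nonneg _ hp0)
  have hi'' : (i : ℤ) = -n * k - p * ((-n * k) / p) := by
    rw [hi']; have := Int.emod_add_mul_ediv (-n * k) p; linarith
  have hiR : (i : R) = -n * k - p * (((-n * k) / p : ℤ) : R) := by
    have := congrArg (Int.cast : ℤ → R) hi''
    push_cast at this
    exact_mod_cast this
  refine ⟨i, ?_⟩
  have hgeom := S.geom_sum_congr i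
  have hz : z ^ i - 1 = (z - 1) * ∑ j ∈ range i, z ^ j := (mul_geom_sum z i).symm
  have : x + z ^ i * y = (z - 1) * (t + (∑ j ∈ range i, z ^ j) * y) := by
    linear_combination ht + y * hz
  rw [this, pow_two]
  refine mul_dvd_mul_left _ ?_
  have : t + (∑ j ∈ range i, z ^ j) * y =
      (t - n) + ((∑ j ∈ range i, z ^ j) - (i : R)) * y - n * (y * k - 1)
        - p * (((-n * k) / p : ℤ) : R) * y := by
    rw [hiR]; ring
  rw [this]
  exact dvd_sub (dvd_sub (dvd_add hn (hgeom.mul_right _)) (hk.mul_left _))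
    ((S.lam_dvd_p.mul_right _).mul_right _)

lemma one_add_isUnit : IsUnit (1 + z) := by
  have h2 : Nat.Coprime 2 p :=
    (Nat.coprime_primes Nat.prime_two S.prime).2 (Ne.symm S.ne_two)
  have := S.prim.geom_sum_isUnit S.prime.two_le h2
  simpa [Finset.sum_range_succ] using this

lemma lam_ne_zero : z - 1 ≠ 0 := S.lam_prime.ne_zero

/-- the quotients `(x + η y) / λ` are pairwise coprime. -/
lemma isCoprime_quot {x y : R} (hxy : IsCoprime x y) {η₁ η₂ t₁ t₂ : R}
    (h₁ : η₁ ∈ nthRootsFinset p (1 : R)) (h₂ : η₂ ∈ nthRootsFinset p (1 : R)) (hne : η₁ ≠ η₂)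
    (ht₁ : x + η₁ * y = (z - 1) * t₁) (ht₂ : x + η₂ * y = (z - 1) * t₂) : IsCoprime t₁ t₂ := by
  obtain ⟨u, hu⟩ := S.prim.nthRootsFinset_pairwise_associated_sub_one_sub_of_prime S.prime h₁ h₂ hne
  obtain ⟨a, b, hab⟩ := hxy
  have e1 : t₁ - t₂ = u * y := by
    apply mul_left_cancel₀ S.lam_ne_zero
    linear_combination ht₂ - ht₁ - y * hu
  have e2 : η₂ * t₁ - η₁ * t₂ = - u * x := by
    apply mul_left_cancel₀ S.lam_ne_zero
    linear_combination η₁ * ht₂ - η₂ * ht₁ + x * hu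
  have huu : (u : R) * ((u⁻¹ : Rˣ) : R) = 1 := by simp
  refine ⟨(-a * η₂ + b) * ((u⁻¹ : Rˣ) : R), (a * η₁ - b) * ((u⁻¹ : Rˣ) : R), ?_⟩
  linear_combination ((u⁻¹ : Rˣ) : R) * b * e1 - ((u⁻¹ : Rˣ) : R) * a * e2
    + (a * x + b * y) * huu + hab

/-- The descent step, assuming `λ ^ 2 ∣ x + y`. -/
lemma descent_aux [IsPrincipalIdealRing R] {x y w : R} {e : Rˣ} {m : ℕ} (hxy : IsCoprime x y)
    (hw : ¬ z - 1 ∣ w) (hy : ¬ z - 1 ∣ y) (hsq : (z - 1) ^ 2 ∣ x + y)
    (heq : x ^ p + y ^ p = e * ((z - 1) ^ (m + 1) * w) ^ p) :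
    ∃ m' : ℕ, m = m' + 1 ∧ ∃ (x' y' w' : R) (e' : Rˣ), IsCoprime x' y' ∧ ¬ z - 1 ∣ w' ∧
      x' ^ p + y' ^ p = e' * ((z - 1) ^ (m' + 1) * w') ^ p := by
  classical
  set T := nthRootsFinset p (1 : R) with hT
  have hlam := S.lam_prime
  have hlam0 := S.lam_ne_zero
  have hp0 : 0 < p := S.prime.pos
  -- all factors are divisible by `λ`
  have hdiv : ∀ η : R, ∃ t : R, η ∈ T → x + η * y = (z - 1) * t := by
    intro η
    by_cases hη : η ∈ T
    · have h1 : z - 1 ∣ x + y := (dvd_pow_self _ two_ne_zero).trans hsq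
      have h2 : x + η * y = (x + y) + (η - 1) * y := by ring
      obtain ⟨t, ht⟩ : z - 1 ∣ x + η * y := by
        rw [h2]; exact dvd_add h1 ((S.lam_dvd_sub_one hη).mul_right _)
      exact ⟨t, fun _ => ht⟩
    · exact ⟨0, fun h => absurd h hη⟩
  choose t ht using hdiv
  have ht1 : z - 1 ∣ t 1 := by
    have h1 := ht 1 S.one_mem
    rw [one_mul] at h1
    rw [h1, pow_two] at hsq
    exact (mul_dvd_mul_iff_left hlam0).1 hsq
  have htne : ∀ η ∈ T, η ≠ 1 → ¬ z - 1 ∣ t η := by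
    intro η hη hne hdvd
    obtain ⟨u, hu⟩ :=
      S.prim.nthRootsFinset_pairwise_associated_sub_one_sub_of_prime S.prime hη S.one_mem hne
    have e1 : t η - t 1 = u * y := by
      apply mul_left_cancel₀ hlam0
      linear_combination ht 1 S.one_mem - ht η hη - y * hu
    apply hy
    have h3 : z - 1 ∣ (u : R) * y := e1 ▸ dvd_sub hdvd ht1
    exact (u.isUnit.dvd_mul_left).1 h3
  have hcop : ∀ η₁ ∈ T, ∀ η₂ ∈ T, η₁ ≠ η₂ → IsCoprime (t η₁) (t η₂) := fun η₁ h₁ η₂ h₂ hne =>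
    S.isCoprime_quot hxy h₁ h₂ hne (ht η₁ h₁) (ht η₂ h₂)
  have hprod : ∏ η ∈ T, t η = e * ((z - 1) ^ m * w) ^ p := by
    apply mul_left_cancel₀ (pow_ne_zero p hlam0)
    have h4 : ∏ η ∈ T, (x + η * y) = (z - 1) ^ p * ∏ η ∈ T, t η := by
      rw [Finset.prod_congr rfl ht, Finset.prod_mul_distrib, Finset.prod_const, S.card_roots]
    rw [← h4, ← S.prim.pow_add_pow_eq_prod_add_mul x y S.odd, heq]
    generalize z - 1 = l
    ring
  set P := ∏ η ∈ T.erase 1, t η with hP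
  have hsplit : t 1 * P = e * ((z - 1) ^ m * w) ^ p := by
    rw [hP, Finset.mul_prod_erase T t S.one_mem, hprod]
  have hPndvd : ¬ z - 1 ∣ P := by
    intro h
    obtain ⟨η, hη, hd⟩ := (hlam.dvd_finsetProd_iff _).1 h
    exact htne η (Finset.mem_of_mem_erase hη) (Finset.ne_of_mem_erase hη) hd
  obtain ⟨m', rfl⟩ : ∃ m', m = m' + 1 := by
    rcases m with _ | m'
    · exfalso
      have h5 : z - 1 ∣ (e : R) * ((z - 1) ^ 0 * w) ^ p := hsplit ▸ ht1.mul_right _
      rw [pow_zero, one_mul] at h5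
      exact hw (hlam.dvd_of_dvd_pow ((e.isUnit.dvd_mul_left).1 h5))
    · exact ⟨m', rfl⟩
  refine ⟨m', rfl, ?_⟩
  obtain ⟨s, hs⟩ : (z - 1) ^ ((m' + 1) * p) ∣ t 1 := by
    apply hlam.pow_dvd_of_dvd_mul_right _ hPndvd
    rw [hsplit, mul_pow, ← pow_mul]
    exact (dvd_mul_right _ _).mul_left _
  have hsP : s * P = e * w ^ p := by
    apply mul_left_cancel₀ (pow_ne_zero ((m' + 1) * p) hlam0)
    rw [← mul_assoc, ← hs, hsplit]
    generalize z - 1 = l
    ring
  set t' : R → R := fun η => if η = 1 then s else t η with ht'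
  have ht'1 : t' 1 = s := by simp [ht']
  have ht'ne : ∀ η, η ≠ 1 → t' η = t η := fun η hη => by simp [ht', hη]
  have hprod' : ∏ η ∈ T, t' η = e * w ^ p := by
    rw [← Finset.mul_prod_erase T t' S.one_mem, ← hsP, ht'1, hP]
    congr 1
    exact Finset.prod_congr rfl fun η hη => ht'ne η (Finset.ne_of_mem_erase hη)
  have hcop' : ∀ η₁ ∈ T, ∀ η₂ ∈ T, η₁ ≠ η₂ → IsCoprime (t' η₁) (t' η₂) := by
    intro η₁ h₁ η₂ h₂ hne
    have h6 := hcop η₁ h₁ η₂ h₂ hne
    by_cases c1 : η₁ = 1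
    · have c2 : η₂ ≠ 1 := fun c => hne (c1.trans c.symm)
      rw [c1, ht'1, ht'ne η₂ c2]
      rw [c1, hs] at h6
      exact h6.of_mul_left_right
    · by_cases c2 : η₂ = 1
      · rw [c2, ht'1, ht'ne η₁ c1]
        rw [c2, hs] at h6
        exact h6.of_mul_right_right
      · rwa [ht'ne η₁ c1, ht'ne η₂ c2]
  have hassoc : Associated (w ^ p) (∏ η ∈ T, t' η) := by
    rw [hprod']; exact ⟨e, by ring⟩
  have key : ∀ η ∈ T, ∃ d : R, Associated (d ^ p) (t' η) := fun η hη =>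
    exists_associated_pow_of_prod T t' hcop' w p hassoc hη
  -- the three roots of unity we use
  set z' : R := z ^ (p - 1) with hz'
  have hzz' : z * z' = 1 := by
    rw [hz', ← pow_succ', Nat.sub_add_cancel S.prime.one_le, S.prim.pow_eq_one]
  have hz1 : z ≠ 1 := S.prim.ne_one S.prime.one_lt
  have hz'1 : z' ≠ 1 := fun h => hz1 (by rw [h, mul_one] at hzz'; exact hzz')
  have hzne : z ≠ z' := by
    intro h
    have h7 : z ^ 2 = 1 := by rw [pow_two]; nth_rewrite 2 [h]; exact hzz'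
    have h8 : p ∣ 2 := S.prim.dvd_of_pow_eq_one 2 h7
    exact S.ne_two ((Nat.prime_dvd_prime_iff_eq S.prime Nat.prime_two).1 h8)
  have hzT : z ∈ T := by simpa using S.pow_mem 1
  have hz'T : z' ∈ T := S.pow_mem (p - 1)
  obtain ⟨r₁, e₁, h₁⟩ := key z hzT
  obtain ⟨r₂, e₂, h₂⟩ := key z' hz'T
  obtain ⟨r₀, e₀, h₀⟩ := key 1 S.one_mem
  rw [ht'ne z hz1] at h₁
  rw [ht'ne z' hz'1] at h₂
  rw [ht'1] at h₀
  have hid : t z + z * t z' = (1 + z) * t 1 := by
    apply mul_left_cancel₀ hlam0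
    linear_combination -(ht z hzT) - z * (ht z' hz'T) + (1 + z) * ht 1 S.one_mem + y * hzz'
  set v : Rˣ := S.one_add_isUnit.unit with hv
  have hvv : (v : R) = 1 + z := S.one_add_isUnit.unit_spec
  set zu : Rˣ := (S.prim.isUnit S.prime.ne_zero).unit with hzu
  have hzuv : (zu : R) = z := (S.prim.isUnit S.prime.ne_zero).unit_spec
  set η : Rˣ := zu * e₂ * e₁⁻¹ with hη
  set δ : Rˣ := v * e₀ * e₁⁻¹ with hδ
  have he₁ : (e₁ : R) * ((e₁⁻¹ : Rˣ) : R) = 1 := by simp
  have main : r₁ ^ p + (η : R) * r₂ ^ p = δ * ((z - 1) ^ (m' + 1) * r₀) ^ p := by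
    rw [hs, ← h₁, ← h₂, ← h₀] at hid
    rw [hη, hδ]
    simp only [Units.val_mul, hvv, hzuv]
    rw [mul_pow, ← pow_mul]
    generalize (z - 1) ^ ((m' + 1) * p) = L at hid ⊢
    linear_combination ((e₁⁻¹ : Rˣ) : R) * hid - r₁ ^ p * he₁
  have hr₂ : ¬ z - 1 ∣ r₂ := by
    intro h
    apply htne z' hz'T hz'1
    rw [← h₂]
    exact (h.trans (dvd_pow_self _ hp0.ne')).mul_right _
  have hdvd : (z - 1) ^ p ∣ r₁ ^ p + (η : R) * r₂ ^ p := by
    rw [main]
    refine Dvd.dvd.mul_left ?_ _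
    exact pow_dvd_pow_of_dvd ((dvd_pow_self _ (Nat.succ_ne_zero _)).mul_right _) _
  obtain ⟨n, hn⟩ := S.unit_congr_int hr₂ hdvd
  obtain ⟨η₁, hη₁⟩ := S.kummer η ⟨n, hn⟩
  refine ⟨r₁, η₁ * r₂, r₀, δ, ?_, ?_, ?_⟩
  · have h9 := hcop z hzT z' hz'T hzne
    rw [← h₁, ← h₂] at h9
    have h10 : IsCoprime r₁ r₂ :=
      (IsCoprime.pow_iff hp0 hp0).1 h9.of_mul_left_left.of_mul_right_left
    exact (isCoprime_mul_unit_left_right η₁.isUnit _ _).2 h10
  · intro h
    have h11 : z - 1 ∣ s * P := by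
      rw [← h₀]
      exact ((h.trans (dvd_pow_self _ hp0.ne')).mul_right _).mul_right _
    rw [hsP] at h11
    exact hw (hlam.dvd_of_dvd_pow ((e.isUnit.dvd_mul_left).1 h11))
  · rw [← main, mul_pow, hη₁]
    simp

/-- The descent step. -/
lemma descent [IsPrincipalIdealRing R] {x y w : R} {e : Rˣ} {m : ℕ} (hxy : IsCoprime x y)
    (hw : ¬ z - 1 ∣ w) (heq : x ^ p + y ^ p = e * ((z - 1) ^ (m + 1) * w) ^ p) :
    ∃ m' : ℕ, m = m' + 1 ∧ ∃ (x' y' w' : R) (e' : Rˣ), IsCoprime x' y' ∧ ¬ z - 1 ∣ w' ∧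
      x' ^ p + y' ^ p = e' * ((z - 1) ^ (m' + 1) * w') ^ p := by
  have h1 : z - 1 ∣ x + y := by
    have h2 : z - 1 ∣ x ^ p + y ^ p := by
      rw [heq]
      refine Dvd.dvd.mul_left ?_ _
      exact ((dvd_pow_self _ (Nat.succ_ne_zero _)).mul_right _).trans
        (dvd_pow_self _ S.prime.ne_zero)
    rw [S.prim.pow_add_pow_eq_prod_add_mul x y S.odd] at h2
    obtain ⟨η, hη, hd⟩ := (S.lam_prime.dvd_finsetProd_iff _).1 h2
    have e : x + y = (x + η * y) - (η - 1) * y := by ring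
    rw [e]
    exact dvd_sub hd ((S.lam_dvd_sub_one hη).mul_right _)
  have hy : ¬ z - 1 ∣ y := fun h =>
    S.lam_prime.not_isUnit (hxy.isUnit_of_dvd' ((dvd_add_left h).1 h1) h)
  obtain ⟨i, hi⟩ := S.exists_sq_dvd hy h1
  have hzi : IsUnit (z ^ i) := (S.prim.isUnit S.prime.ne_zero).pow i
  refine S.descent_aux (x := x) (y := z ^ i * y) (w := w) (e := e)
    ((isCoprime_mul_unit_left_right hzi _ _).2 hxy) hw ?_ hi ?_
  · rwa [hzi.dvd_mul_left]
  · rw [mul_pow, ← pow_mul, mul_comm i p, pow_mul, S.prim.pow_eq_one, one_pow, one_mul, heq]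

/-- The generalised Fermat equation has no solution. -/
theorem no_solution [IsPrincipalIdealRing R] (m : ℕ) : ∀ (x y w : R) (e : Rˣ), IsCoprime x y →
    ¬ z - 1 ∣ w → x ^ p + y ^ p ≠ e * ((z - 1) ^ (m + 1) * w) ^ p := by
  induction m with
  | zero =>
    intro x y w e hxy hw heq
    obtain ⟨m', hm', -⟩ := S.descent hxy hw heq
    omega
  | succ k ih =>
    intro x y w e hxy hw heq
    obtain ⟨m', hm', x', y', w', e', hxy', hw', heq'⟩ := S.descent hxy hw heq
    obtain rfl : k = m' := by omega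
    exact ih x' y' w' e' hxy' hw' heq'

/-- The second case of Fermat's last theorem in the abstract setting. -/
theorem caseII_aux [IsPrincipalIdealRing R] {x y c : R} (hxy : IsCoprime x y) (hc : c ≠ 0)
    (hpc : z - 1 ∣ c) : x ^ p + y ^ p ≠ c ^ p := by
  obtain ⟨m, w, hw, rfl⟩ := WfDvdMonoid.max_power_factor hc S.lam_prime.irreducible
  rcases m with _ | m
  · simp only [pow_zero, one_mul] at hpc
    exact absurd hpc hw
  · simpa using S.no_solution m x y w 1 hxy hw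

end Setting

/-- Every element of the ring of integers of the `p`-th cyclotomic field is congruent to a rational
integer modulo `ζ - 1`. -/
lemma exists_int_sub_dvd {n : ℕ} [NeZero n] {K : Type*} [Field K] [CharZero K]
    [IsCyclotomicExtension {n} ℚ K] {ζ : K} (hζ : IsPrimitiveRoot ζ n) (x : 𝓞 K) :
    ∃ k : ℤ, hζ.toInteger - 1 ∣ x - (k : 𝓞 K) := by
  obtain ⟨f, hf⟩ := hζ.integralPowerBasis.exists_eq_aeval' x
  rw [hζ.integralPowerBasis_gen] at hf
  refine ⟨f.eval 1, ?_⟩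
  have h1 : x = (f.map (algebraMap ℤ (𝓞 K))).eval hζ.toInteger := by
    rw [hf, Polynomial.eval_map_algebraMap]
  have h2 : ((f.eval 1 : ℤ) : 𝓞 K) = (f.map (algebraMap ℤ (𝓞 K))).eval 1 := by
    rw [Polynomial.eval_map, Polynomial.eval₂_at_one]
    rfl
  rw [h1, h2]
  exact Polynomial.sub_dvd_eval_sub _ _ _

/-- The instance `IsCyclotomicExtension {p} ℚ (CyclotomicField p ℚ)` for the canonical
`ℚ`-algebra structure (instance search only finds it for `CyclotomicField.algebra`). -/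
theorem isCyclotomicExtension_rat (p : ℕ) : IsCyclotomicExtension {p} ℚ (CyclotomicField p ℚ) :=
  (inferInstance :
    @IsCyclotomicExtension {p} ℚ (CyclotomicField p ℚ) _ _ (CyclotomicField.algebra p ℚ))

attribute [local instance] isCyclotomicExtension_rat

/-- A good prime yields an instance of the abstract setting. -/
lemma setting_of_goodPrime {p : ℕ} (h : GoodPrime p) [NeZero p] :
    Setting p (IsCyclotomicExtension.zeta_spec p ℚ (CyclotomicField p ℚ)).toInteger := by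
  have : Fact p.Prime := ⟨h.prime⟩
  set hz := IsCyclotomicExtension.zeta_spec p ℚ (CyclotomicField p ℚ)
  exact
    { prime := h.prime
      ne_two := by have := h.five_le; omega
      prim := hz.toInteger_isPrimitiveRoot
      lam_prime := hz.zeta_sub_one_prime'
      assoc := IsCyclotomicExtension.Rat.associated_zeta_sub_one_pow_prime p hz
      int_mod := exists_int_sub_dvd hz
      kummer := h.kummer }

end Fermat.Agent.Kummer.CaseII

namespace Fermat.Agent.Kummer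

/-- **Second case of Fermat's last theorem** for a good prime. -/
theorem caseII {p : ℕ} (h : GoodPrime p) {a b c : ℤ} (hab : IsCoprime a b) (hc : c ≠ 0)
    (hp : (p : ℤ) ∣ c) : a ^ p + b ^ p ≠ c ^ p := by
  intro heq
  have : NeZero p := ⟨h.prime.ne_zero⟩
  have := h.pid
  have := CaseII.isCyclotomicExtension_rat p
  have S := CaseII.setting_of_goodPrime h
  set R := 𝓞 (CyclotomicField p ℚ)
  have h1 : IsCoprime (a : R) (b : R) := by simpa using hab.map (Int.castRingHom R)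
  have h2 : (c : R) ≠ 0 := by exact_mod_cast hc
  have h3 : (IsCyclotomicExtension.zeta_spec p ℚ (CyclotomicField p ℚ)).toInteger - 1 ∣ (c : R) := by
    obtain ⟨d, rfl⟩ := hp
    rw [Int.cast_mul, Int.cast_natCast]
    exact S.lam_dvd_p.mul_right _
  exact S.caseII_aux h1 h2 h3 (by exact_mod_cast congrArg (Int.cast : ℤ → R) heq)

end Fermat.Agent.Kummer
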