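import Fermat.Agent.Kummer.Basic

/-!
# Complex conjugation on the ring of integers of the `p`-th cyclotomic field, and units
-/

set_option autoImplicit false

open NumberField Polynomial Finset

namespace Fermat.Agent.Kummer

variable {p : ℕ} [hp : Fact p.Prime] {K : Type*} [Field K] [NumberField K]
  [IsCyclotomicExtension {p} ℚ K] {ζ : K} (hζ : IsPrimitiveRoot ζ p)

/-- There is a ring endomorphism `σ` of `𝓞 K` (complex conjugation) with `σ ζ = ζ ^ (p - 1)` such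
that `u / σ u` is a power of `ζ` for every unit `u`. -/
theorem exists_conj (hodd : p ≠ 2) :
    ∃ σ : 𝓞 K →+* 𝓞 K, σ hζ.toInteger = hζ.toInteger ^ (p - 1) ∧
      ∀ u : (𝓞 K)ˣ, ∃ j < p, (u : 𝓞 K) = hζ.toInteger ^ j * σ u := by
  have hp2 : 2 < p := lt_of_le_of_ne hp.out.two_le (Ne.symm hodd)
  have : IsCMField K := IsCyclotomicExtension.Rat.isCMField K (S := {p}) ⟨p, rfl, hp2⟩
  have hζ' := hζ.toInteger_isPrimitiveRoot
  have hp1 : p - 1 + 1 = p := Nat.sub_add_cancel hp.out.one_le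
  let σ : 𝓞 K →+* 𝓞 K := (IsCMField.ringOfIntegersComplexConj K : 𝓞 K →+* 𝓞 K)
  have hσζ : σ hζ.toInteger = hζ.toInteger ^ (p - 1) := by
    -- `ζ` as a torsion unit
    let ζu : (𝓞 K)ˣ := (hζ'.isUnit (NeZero.ne p)).unit
    have hmem : ζu ∈ Units.torsion K := by
      refine (CommGroup.mem_torsion _).mpr ⟨p, hp.out.pos, ?_⟩
      rw [isPeriodicPt_mul_iff_pow_eq_one]
      ext
      simp [ζu, hζ.pow_eq_one]
    have h1 := IsCMField.complexConj_torsion K ⟨ζu, hmem⟩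
    apply RingOfIntegers.ext
    show IsCMField.complexConj K (hζ.toInteger : K) = _
    have h2 : ((ζu : 𝓞 K) : K) = ζ := rfl
    simp only [h2] at h1
    have h4 : ((hζ.toInteger : 𝓞 K) : K) = ζ := rfl
    have h3 : ζ * ζ ^ (p - 1) = 1 := by rw [← pow_succ', hp1, hζ.pow_eq_one]
    have h5 : ((hζ.toInteger ^ (p - 1) : 𝓞 K) : K) = ζ ^ (p - 1) := by
      rw [show ((hζ.toInteger ^ (p - 1) : 𝓞 K) : K) = ((hζ.toInteger : 𝓞 K) : K) ^ (p - 1) from
        map_pow (algebraMap (𝓞 K) K) _ _, h4]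
    rw [h4, h1, h5]
    exact inv_eq_of_mul_eq_one_right h3
  refine ⟨σ, hσζ, fun u => ?_⟩
  -- the root of unity `u / σ u`
  let t := IsCMField.unitsMulComplexConjInv K u
  have ht : ((t : (𝓞 K)ˣ) : 𝓞 K) * σ u = u := by
    have : (t : (𝓞 K)ˣ) = u * (IsCMField.unitsComplexConj K u)⁻¹ :=
      IsCMField.unitsMulComplexConjInv_apply K u
    have h2 : ((IsCMField.unitsComplexConj K u : (𝓞 K)ˣ) : 𝓞 K) = σ u := rfl
    rw [this, Units.val_mul, mul_assoc, ← h2, Units.inv_mul, mul_one]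
  have hord : Units.torsionOrder K = 2 * p := by
    rw [IsCyclotomicExtension.Rat.torsionOrder_eq (n := p) (K := K),
      if_neg (Nat.not_even_iff_odd.mpr (hp.out.odd_of_ne_two hodd))]
  have htp : ((t : (𝓞 K)ˣ) : 𝓞 K) ^ (2 * p) = 1 := by
    have h1 : t ^ Nat.card (Units.torsion K) = 1 := pow_card_eq_one'
    have h2 : Nat.card (Units.torsion K) = 2 * p := hord
    rw [h2] at h1
    have h3 := congrArg (fun x : Units.torsion K => ((x : (𝓞 K)ˣ) : 𝓞 K)) h1
    simpa using h3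
  set T : 𝓞 K := ((t : (𝓞 K)ˣ) : 𝓞 K) with hT
  have hcases : T ^ p = 1 ∨ T ^ p = -1 := by
    rw [← mul_self_eq_one_iff, ← pow_add, ← two_mul]
    exact htp
  rcases hcases with h | h
  · obtain ⟨j, hj, hjT⟩ := hζ'.eq_pow_of_pow_eq_one h
    exact ⟨j, hj, by rw [hjT, ht]⟩
  · exfalso
    have hodd' : Odd p := hp.out.odd_of_ne_two hodd
    have h' : (-T) ^ p = 1 := by rw [hodd'.neg_pow, h, neg_neg]
    obtain ⟨j, hj, hjT⟩ := hζ'.eq_pow_of_pow_eq_one h'
    obtain ⟨n, hn⟩ := exists_int_zeta_sub_one_dvd_sub hζ (u : 𝓞 K)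
    have hlam : hζ.toInteger - 1 ∣ σ (hζ.toInteger - 1) := by
      rw [map_sub, map_one, hσζ]
      simpa using sub_dvd_pow_sub_pow hζ.toInteger 1 (p - 1)
    have hn' : hζ.toInteger - 1 ∣ σ u - (n : 𝓞 K) := by
      have := map_dvd σ hn
      rw [map_sub σ (u : 𝓞 K), map_intCast] at this
      exact hlam.trans this
    have hj1 : hζ.toInteger - 1 ∣ hζ.toInteger ^ j - 1 := by
      simpa using sub_dvd_pow_sub_pow hζ.toInteger 1 j
    have hzero : (u : 𝓞 K) + hζ.toInteger ^ j * σ u = 0 := by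
      rw [hjT]; nth_rewrite 1 [← ht]; ring
    have h2n : hζ.toInteger - 1 ∣ ((2 * n : ℤ) : 𝓞 K) := by
      have e : ((2 * n : ℤ) : 𝓞 K) = ((u : 𝓞 K) + hζ.toInteger ^ j * σ u) - ((u : 𝓞 K) - n)
          - hζ.toInteger ^ j * (σ u - n) - (hζ.toInteger ^ j - 1) * n := by push_cast; ring
      rw [e, hzero]
      exact dvd_sub (dvd_sub (dvd_sub (dvd_zero _) hn) (Dvd.dvd.mul_left hn' _))
        (Dvd.dvd.mul_right hj1 _)
    rw [zeta_sub_one_dvd_intCast_iff hζ hodd] at h2n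
    have hpn : (p : ℤ) ∣ n := by
      have hpp : Prime (p : ℤ) := Nat.prime_iff_prime_int.mp hp.out
      rcases hpp.dvd_or_dvd h2n with h2 | h2
      · exfalso
        have := Int.le_of_dvd (by norm_num) h2
        omega
      · exact h2
    rw [← zeta_sub_one_dvd_intCast_iff hζ hodd] at hpn
    have hu : hζ.toInteger - 1 ∣ (u : 𝓞 K) := by
      have := dvd_add hn hpn
      simpa using this
    exact hζ.zeta_sub_one_prime'.not_isUnit (isUnit_of_dvd_unit hu u.isUnit)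

end Fermat.Agent.Kummer
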