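import Fermat.Agent.Kummer.KummerLemma

/-! # Certificate for Kummer's lemma, `p = 11` (generated by a script) -/

set_option autoImplicit false

namespace Fermat.Agent.Kummer.KL

instance fact_prime_eleven : Fact (Nat.Prime 11) := ⟨by norm_num⟩

/-- Coefficients of the logarithmic derivatives of the cyclotomic units. -/
def certQ11 : Matrix (Fin 5) (Fin 9) (ZMod 11) :=
  !![6, 8, 7, 2, 10, 6, 8, 7, 2;
    1, 7, 0, 5, 6, 7, 2, 3, 0;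
    7, 8, 1, 8, 7, 6, 4, 0, 0;
    2, 0, 10, 3, 0, 6, 5, 6, 5;
    8, 5, 5, 8, 6, 0, 0, 0, 0]

/-- A right inverse of `certQ11`. -/
def certR11 : Matrix (Fin 9) (Fin 5) (ZMod 11) :=
  !![6, 7, 0, 6, 7;
    8, 7, 4, 0, 2;
    0, 0, 0, 0, 0;
    0, 1, 3, 5, 7;
    0, 0, 0, 0, 0;
    8, 5, 0, 1, 0;
    0, 0, 0, 0, 0;
    1, 5, 4, 2, 7;
    0, 0, 0, 0, 0]

set_option maxRecDepth 100000 in
lemma certQ11_mul_certR11 : certQ11 * certR11 = 1 := by decide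

lemma cert11_0 {W : Type*} [CommRing W] (t : W) (ht : t ^ 9 = 0) (hp : (11 : W) = 0) :
    (6 + 8 * t + 7 * t ^ 2 + 2 * t ^ 3 + 10 * t ^ 4 + 6 * t ^ 5 + 8 * t ^ 6 + 7 * t ^ 7 + 2 * t ^ 8) * (1 + (1 + t)) = 1 := by
  linear_combination (2) * ht + (1 + 2 * t + 2 * t ^ 2 + 1 * t ^ 3 + 2 * t ^ 4 + 2 * t ^ 5 + 2 * t ^ 6 + 2 * t ^ 7 + 1 * t ^ 8) * hp

lemma cert11_1 {W : Type*} [CommRing W] (t : W) (ht : t ^ 9 = 0) (hp : (11 : W) = 0) :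
    (1 + 7 * t + 5 * t ^ 3 + 6 * t ^ 4 + 7 * t ^ 5 + 2 * t ^ 6 + 3 * t ^ 7) * (1 + (1 + t) + (1 + t) ^ 2) = 1 + 2 * (1 + t) := by
  linear_combination (3) * ht + (2 * t + 2 * t ^ 2 + 2 * t ^ 3 + 3 * t ^ 4 + 4 * t ^ 5 + 3 * t ^ 6 + 2 * t ^ 7 + 1 * t ^ 8) * hp

lemma cert11_2 {W : Type*} [CommRing W] (t : W) (ht : t ^ 9 = 0) (hp : (11 : W) = 0) :
    (7 + 8 * t + 1 * t ^ 2 + 8 * t ^ 3 + 7 * t ^ 4 + 6 * t ^ 5 + 4 * t ^ 6) * (1 + (1 + t) + (1 + t) ^ 2 + (1 + t) ^ 3) = 1 + 2 * (1 + t) + 3 * (1 + t) ^ 2 := by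
  linear_combination (4) * ht + (2 + 6 * t + 7 * t ^ 2 + 7 * t ^ 3 + 8 * t ^ 4 + 9 * t ^ 5 + 8 * t ^ 6 + 5 * t ^ 7 + 2 * t ^ 8) * hp

lemma cert11_3 {W : Type*} [CommRing W] (t : W) (ht : t ^ 9 = 0) (hp : (11 : W) = 0) :
    (2 + 10 * t ^ 2 + 3 * t ^ 3 + 6 * t ^ 5 + 5 * t ^ 6 + 6 * t ^ 7 + 5 * t ^ 8) * (1 + (1 + t) + (1 + t) ^ 2 + (1 + t) ^ 3 + (1 + t) ^ 4) = 1 + 2 * (1 + t) + 3 * (1 + t) ^ 2 + 4 * (1 + t) ^ 3 := by
  linear_combination (141 + 85 * t + 31 * t ^ 2 + 5 * t ^ 3) * ht + (5 * t ^ 2 + 11 * t ^ 3 + 12 * t ^ 4 + 10 * t ^ 5 + 10 * t ^ 6 + 13 * t ^ 7 + 15 * t ^ 8) * hp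

lemma cert11_4 {W : Type*} [CommRing W] (t : W) (ht : t ^ 9 = 0) (hp : (11 : W) = 0) :
    (8 + 5 * t + 5 * t ^ 2 + 8 * t ^ 3 + 6 * t ^ 4) * (1 + (1 + t) + (1 + t) ^ 2 + (1 + t) ^ 3 + (1 + t) ^ 4 + (1 + t) ^ 5) = 1 + 2 * (1 + t) + 3 * (1 + t) ^ 2 + 4 * (1 + t) ^ 3 + 5 * (1 + t) ^ 4 := by
  linear_combination (6) * ht + (3 + 10 * t + 20 * t ^ 2 + 29 * t ^ 3 + 34 * t ^ 4 + 33 * t ^ 5 + 25 * t ^ 6 + 13 * t ^ 7 + 4 * t ^ 8) * hp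

theorem _root_.Fermat.Agent.Kummer.kummerLemma_eleven : KummerLemma 11 (CyclotomicField 11 ℚ) := by
  refine kummerLemma_of_cert 11 8 5 rfl rfl (fun i => ∑ l, certQ11 i l • tt 11 9 ^ (l : ℕ)) ?_
    (linearIndependent_of_matrix 11 9 5 certQ11 certR11 certQ11_mul_certR11)
  have ht := tt_pow 11 9
  have hp : ((11 : ℕ) : TruncRing 11 9) = 0 := natCast_truncRing 11 9
  intro i
  fin_cases i
  · have h := cert11_0 (tt 11 9) ht (by exact_mod_cast hp)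
    simp only [certQ11, Fin.sum_univ_succ, Finset.sum_range_succ, Algebra.smul_def]
    simp [map_ofNat]
    linear_combination h
  · have h := cert11_1 (tt 11 9) ht (by exact_mod_cast hp)
    simp only [certQ11, Fin.sum_univ_succ, Finset.sum_range_succ, Algebra.smul_def]
    simp [map_ofNat]
    linear_combination h
  · have h := cert11_2 (tt 11 9) ht (by exact_mod_cast hp)
    simp only [certQ11, Fin.sum_univ_succ, Finset.sum_range_succ, Algebra.smul_def]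
    simp [map_ofNat]
    linear_combination h
  · have h := cert11_3 (tt 11 9) ht (by exact_mod_cast hp)
    simp only [certQ11, Fin.sum_univ_succ, Finset.sum_range_succ, Algebra.smul_def]
    simp [map_ofNat]
    linear_combination h
  · have h := cert11_4 (tt 11 9) ht (by exact_mod_cast hp)
    simp only [certQ11, Fin.sum_univ_succ, Finset.sum_range_succ, Algebra.smul_def]
    simp [map_ofNat]
    linear_combination h

end Fermat.Agent.Kummer.KL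

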