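import Fermat.Agent.Kummer.KummerLemma

/-! # Certificate for Kummer's lemma, `p = 13` (generated by a script) -/

set_option autoImplicit false

namespace Fermat.Agent.Kummer.KL

instance fact_prime_thirteen : Fact (Nat.Prime 13) := ⟨by norm_num⟩

/-- Coefficients of the logarithmic derivatives of the cyclotomic units. -/
def certQ13 : Matrix (Fin 6) (Fin 11) (ZMod 13) :=
  !![7, 3, 5, 4, 11, 1, 6, 10, 8, 9, 2;
    1, 4, 0, 3, 10, 2, 12, 9, 0, 10, 3;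
    8, 3, 11, 11, 1, 1, 11, 5, 4, 9, 4;
    2, 0, 12, 6, 0, 2, 11, 4, 7, 3, 5;
    9, 8, 3, 8, 9, 1, 6, 7, 6, 7, 6;
    3, 1, 10, 1, 3, 7, 0, 0, 0, 0, 0]

/-- A right inverse of `certQ13`. -/
def certR13 : Matrix (Fin 11) (Fin 6) (ZMod 13) :=
  !![10, 12, 7, 4, 2, 2;
    2, 12, 11, 2, 8, 6;
    0, 0, 0, 0, 0, 0;
    10, 2, 9, 2, 9, 6;
    0, 0, 0, 0, 0, 0;
    7, 4, 9, 7, 6, 5;
    0, 0, 0, 0, 0, 0;
    11, 0, 6, 1, 0, 1;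
    0, 0, 0, 0, 0, 0;
    6, 7, 11, 5, 7, 8;
    0, 0, 0, 0, 0, 0]

set_option maxRecDepth 100000 in
lemma certQ13_mul_certR13 : certQ13 * certR13 = 1 := by decide

lemma cert13_0 {W : Type*} [CommRing W] (t : W) (ht : t ^ 11 = 0) (hp : (13 : W) = 0) :
    (7 + 3 * t + 5 * t ^ 2 + 4 * t ^ 3 + 11 * t ^ 4 + 1 * t ^ 5 + 6 * t ^ 6 + 10 * t ^ 7 + 8 * t ^ 8 + 9 * t ^ 9 + 2 * t ^ 10) * (1 + (1 + t)) = 1 := by
  linear_combination (2) * ht + (1 + 1 * t + 1 * t ^ 2 + 1 * t ^ 3 + 2 * t ^ 4 + 1 * t ^ 5 + 1 * t ^ 6 + 2 * t ^ 7 + 2 * t ^ 8 + 2 * t ^ 9 + 1 * t ^ 10) * hp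

lemma cert13_1 {W : Type*} [CommRing W] (t : W) (ht : t ^ 11 = 0) (hp : (13 : W) = 0) :
    (1 + 4 * t + 3 * t ^ 3 + 10 * t ^ 4 + 2 * t ^ 5 + 12 * t ^ 6 + 9 * t ^ 7 + 10 * t ^ 9 + 3 * t ^ 10) * (1 + (1 + t) + (1 + t) ^ 2) = 1 + 2 * (1 + t) := by
  linear_combination (19 + 3 * t) * ht + (1 * t + 1 * t ^ 2 + 1 * t ^ 3 + 3 * t ^ 4 + 3 * t ^ 5 + 4 * t ^ 6 + 5 * t ^ 7 + 3 * t ^ 8 + 3 * t ^ 9 + 3 * t ^ 10) * hp

lemma cert13_2 {W : Type*} [CommRing W] (t : W) (ht : t ^ 11 = 0) (hp : (13 : W) = 0) :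
    (8 + 3 * t + 11 * t ^ 2 + 11 * t ^ 3 + 1 * t ^ 4 + 1 * t ^ 5 + 11 * t ^ 6 + 5 * t ^ 7 + 4 * t ^ 8 + 9 * t ^ 9 + 4 * t ^ 10) * (1 + (1 + t) + (1 + t) ^ 2 + (1 + t) ^ 3) = 1 + 2 * (1 + t) + 3 * (1 + t) ^ 2 := by
  linear_combination (64 + 25 * t + 4 * t ^ 2) * ht + (2 + 4 * t + 7 * t ^ 2 + 10 * t ^ 3 + 9 * t ^ 4 + 5 * t ^ 5 + 5 * t ^ 6 + 7 * t ^ 7 + 7 * t ^ 8 + 7 * t ^ 9 + 7 * t ^ 10) * hp

lemma cert13_3 {W : Type*} [CommRing W] (t : W) (ht : t ^ 11 = 0) (hp : (13 : W) = 0) :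
    (2 + 12 * t ^ 2 + 6 * t ^ 3 + 2 * t ^ 5 + 11 * t ^ 6 + 4 * t ^ 7 + 7 * t ^ 8 + 3 * t ^ 9 + 5 * t ^ 10) * (1 + (1 + t) + (1 + t) ^ 2 + (1 + t) ^ 3 + (1 + t) ^ 4) = 1 + 2 * (1 + t) + 3 * (1 + t) ^ 2 + 4 * (1 + t) ^ 3 := by
  linear_combination (119 + 72 * t + 28 * t ^ 2 + 5 * t ^ 3) * ht + (5 * t ^ 2 + 12 * t ^ 3 + 14 * t ^ 4 + 10 * t ^ 5 + 9 * t ^ 6 + 12 * t ^ 7 + 15 * t ^ 8 + 14 * t ^ 9 + 12 * t ^ 10) * hp

lemma cert13_4 {W : Type*} [CommRing W] (t : W) (ht : t ^ 11 = 0) (hp : (13 : W) = 0) :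
    (9 + 8 * t + 3 * t ^ 2 + 8 * t ^ 3 + 9 * t ^ 4 + 1 * t ^ 5 + 6 * t ^ 6 + 7 * t ^ 7 + 6 * t ^ 8 + 7 * t ^ 9 + 6 * t ^ 10) * (1 + (1 + t) + (1 + t) ^ 2 + (1 + t) ^ 3 + (1 + t) ^ 4 + (1 + t) ^ 5) = 1 + 2 * (1 + t) + 3 * (1 + t) ^ 2 + 4 * (1 + t) ^ 3 + 5 * (1 + t) ^ 4 := by
  linear_combination (368 + 268 * t + 138 * t ^ 2 + 43 * t ^ 3 + 6 * t ^ 4) * ht + (3 + 11 * t + 21 * t ^ 2 + 28 * t ^ 3 + 31 * t ^ 4 + 31 * t ^ 5 + 29 * t ^ 6 + 26 * t ^ 7 + 26 * t ^ 8 + 29 * t ^ 9 + 31 * t ^ 10) * hp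

lemma cert13_5 {W : Type*} [CommRing W] (t : W) (ht : t ^ 11 = 0) (hp : (13 : W) = 0) :
    (3 + 1 * t + 10 * t ^ 2 + 1 * t ^ 3 + 3 * t ^ 4 + 7 * t ^ 5) * (1 + (1 + t) + (1 + t) ^ 2 + (1 + t) ^ 3 + (1 + t) ^ 4 + (1 + t) ^ 5 + (1 + t) ^ 6) = 1 + 2 * (1 + t) + 3 * (1 + t) ^ 2 + 4 * (1 + t) ^ 3 + 5 * (1 + t) ^ 4 + 6 * (1 + t) ^ 5 := by
  linear_combination (7) * ht + (7 * t ^ 2 + 21 * t ^ 3 + 35 * t ^ 4 + 41 * t ^ 5 + 39 * t ^ 6 + 34 * t ^ 7 + 25 * t ^ 8 + 13 * t ^ 9 + 4 * t ^ 10) * hp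

theorem _root_.Fermat.Agent.Kummer.kummerLemma_thirteen : KummerLemma 13 (CyclotomicField 13 ℚ) := by
  refine kummerLemma_of_cert 13 10 6 rfl rfl (fun i => ∑ l, certQ13 i l • tt 13 11 ^ (l : ℕ)) ?_
    (linearIndependent_of_matrix 13 11 6 certQ13 certR13 certQ13_mul_certR13)
  have ht := tt_pow 13 11
  have hp : ((13 : ℕ) : TruncRing 13 11) = 0 := natCast_truncRing 13 11
  intro i
  fin_cases i
  · have h := cert13_0 (tt 13 11) ht (by exact_mod_cast hp)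
    simp only [certQ13, Fin.sum_univ_succ, Finset.sum_range_succ, Algebra.smul_def]
    simp [map_ofNat]
    linear_combination h
  · have h := cert13_1 (tt 13 11) ht (by exact_mod_cast hp)
    simp only [certQ13, Fin.sum_univ_succ, Finset.sum_range_succ, Algebra.smul_def]
    simp [map_ofNat]
    linear_combination h
  · have h := cert13_2 (tt 13 11) ht (by exact_mod_cast hp)
    simp only [certQ13, Fin.sum_univ_succ, Finset.sum_range_succ, Algebra.smul_def]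
    simp [map_ofNat]
    linear_combination h
  · have h := cert13_3 (tt 13 11) ht (by exact_mod_cast hp)
    simp only [certQ13, Fin.sum_univ_succ, Finset.sum_range_succ, Algebra.smul_def]
    simp [map_ofNat]
    linear_combination h
  · have h := cert13_4 (tt 13 11) ht (by exact_mod_cast hp)
    simp only [certQ13, Fin.sum_univ_succ, Finset.sum_range_succ, Algebra.smul_def]
    simp [map_ofNat]
    linear_combination h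
  · have h := cert13_5 (tt 13 11) ht (by exact_mod_cast hp)
    simp only [certQ13, Fin.sum_univ_succ, Finset.sum_range_succ, Algebra.smul_def]
    simp [map_ofNat]
    linear_combination h

end Fermat.Agent.Kummer.KL

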