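import Fermat.Agent.Kummer.KummerLemma

/-! # Certificate for Kummer's lemma, `p = 5` (generated by a script) -/

set_option autoImplicit false

namespace Fermat.Agent.Kummer.KL

instance fact_prime_five : Fact (Nat.Prime 5) := ⟨by norm_num⟩

/-- Coefficients of the logarithmic derivatives of the cyclotomic units. -/
def certQ5 : Matrix (Fin 2) (Fin 3) (ZMod 5) :=
  !![3, 1, 2;
    1, 3, 0]

/-- A right inverse of `certQ5`. -/
def certR5 : Matrix (Fin 3) (Fin 2) (ZMod 5) :=
  !![1, 3;
    3, 1;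
    0, 0]

set_option maxRecDepth 100000 in
lemma certQ5_mul_certR5 : certQ5 * certR5 = 1 := by decide

lemma cert5_0 {W : Type*} [CommRing W] (t : W) (ht : t ^ 3 = 0) (hp : (5 : W) = 0) :
    (3 + 1 * t + 2 * t ^ 2) * (1 + (1 + t)) = 1 := by
  linear_combination (2) * ht + (1 + 1 * t + 1 * t ^ 2) * hp

lemma cert5_1 {W : Type*} [CommRing W] (t : W) (ht : t ^ 3 = 0) (hp : (5 : W) = 0) :
    (1 + 3 * t) * (1 + (1 + t) + (1 + t) ^ 2) = 1 + 2 * (1 + t) := by
  linear_combination (3) * ht + (2 * t + 2 * t ^ 2) * hp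

theorem _root_.Fermat.Agent.Kummer.kummerLemma_five : KummerLemma 5 (CyclotomicField 5 ℚ) := by
  refine kummerLemma_of_cert 5 2 2 rfl rfl (fun i => ∑ l, certQ5 i l • tt 5 3 ^ (l : ℕ)) ?_
    (linearIndependent_of_matrix 5 3 2 certQ5 certR5 certQ5_mul_certR5)
  have ht := tt_pow 5 3
  have hp : ((5 : ℕ) : TruncRing 5 3) = 0 := natCast_truncRing 5 3
  intro i
  fin_cases i
  · have h := cert5_0 (tt 5 3) ht (by exact_mod_cast hp)
    simp only [certQ5, Fin.sum_univ_succ, Finset.sum_range_succ, Algebra.smul_def]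
    simp [map_ofNat]
    linear_combination h
  · have h := cert5_1 (tt 5 3) ht (by exact_mod_cast hp)
    simp only [certQ5, Fin.sum_univ_succ, Finset.sum_range_succ, Algebra.smul_def]
    simp [map_ofNat]
    linear_combination h

end Fermat.Agent.Kummer.KL

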