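import Fermat.Agent.Kummer.KummerLemma

/-! # Certificate for Kummer's lemma, `p = 7` (generated by a script) -/

set_option autoImplicit false

namespace Fermat.Agent.Kummer.KL

instance fact_prime_seven : Fact (Nat.Prime 7) := ⟨by norm_num⟩

/-- Coefficients of the logarithmic derivatives of the cyclotomic units. -/
def certQ7 : Matrix (Fin 3) (Fin 5) (ZMod 7) :=
  !![4, 5, 1, 3, 2;
    1, 2, 0, 4, 3;
    5, 5, 4, 0, 0]

/-- A right inverse of `certQ7`. -/
def certR7 : Matrix (Fin 5) (Fin 3) (ZMod 7) :=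
  !![3, 3, 0;
    4, 4, 3;
    0, 0, 0;
    6, 1, 2;
    0, 0, 0]

set_option maxRecDepth 100000 in
lemma certQ7_mul_certR7 : certQ7 * certR7 = 1 := by decide

lemma cert7_0 {W : Type*} [CommRing W] (t : W) (ht : t ^ 5 = 0) (hp : (7 : W) = 0) :
    (4 + 5 * t + 1 * t ^ 2 + 3 * t ^ 3 + 2 * t ^ 4) * (1 + (1 + t)) = 1 := by
  linear_combination (2) * ht + (1 + 2 * t + 1 * t ^ 2 + 1 * t ^ 3 + 1 * t ^ 4) * hp

lemma cert7_1 {W : Type*} [CommRing W] (t : W) (ht : t ^ 5 = 0) (hp : (7 : W) = 0) :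
    (1 + 2 * t + 4 * t ^ 3 + 3 * t ^ 4) * (1 + (1 + t) + (1 + t) ^ 2) = 1 + 2 * (1 + t) := by
  linear_combination (13 + 3 * t) * ht + (1 * t + 1 * t ^ 2 + 2 * t ^ 3 + 3 * t ^ 4) * hp

lemma cert7_2 {W : Type*} [CommRing W] (t : W) (ht : t ^ 5 = 0) (hp : (7 : W) = 0) :
    (5 + 5 * t + 4 * t ^ 2) * (1 + (1 + t) + (1 + t) ^ 2 + (1 + t) ^ 3) = 1 + 2 * (1 + t) + 3 * (1 + t) ^ 2 := by
  linear_combination (4) * ht + (2 + 6 * t + 9 * t ^ 2 + 7 * t ^ 3 + 3 * t ^ 4) * hp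

theorem _root_.Fermat.Agent.Kummer.kummerLemma_seven : KummerLemma 7 (CyclotomicField 7 ℚ) := by
  refine kummerLemma_of_cert 7 4 3 rfl rfl (fun i => ∑ l, certQ7 i l • tt 7 5 ^ (l : ℕ)) ?_
    (linearIndependent_of_matrix 7 5 3 certQ7 certR7 certQ7_mul_certR7)
  have ht := tt_pow 7 5
  have hp : ((7 : ℕ) : TruncRing 7 5) = 0 := natCast_truncRing 7 5
  intro i
  fin_cases i
  · have h := cert7_0 (tt 7 5) ht (by exact_mod_cast hp)
    simp only [certQ7, Fin.sum_univ_succ, Finset.sum_range_succ, Algebra.smul_def]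
    simp [map_ofNat]
    linear_combination h
  · have h := cert7_1 (tt 7 5) ht (by exact_mod_cast hp)
    simp only [certQ7, Fin.sum_univ_succ, Finset.sum_range_succ, Algebra.smul_def]
    simp [map_ofNat]
    linear_combination h
  · have h := cert7_2 (tt 7 5) ht (by exact_mod_cast hp)
    simp only [certQ7, Fin.sum_univ_succ, Finset.sum_range_succ, Algebra.smul_def]
    simp [map_ofNat]
    linear_combination h

end Fermat.Agent.Kummer.KL

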