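import Fermat.Agent.Kummer.PIDLemmas

set_option autoImplicit false

open NumberField Real

namespace Fermat.Agent.Kummer

instance fact_prime_eleven : Fact (Nat.Prime 11) := ⟨by norm_num⟩
instance fact_prime_twentythree : Fact (Nat.Prime 23) := ⟨by norm_num⟩

theorem check_eleven : ∀ q ∈ Finset.Icc 2 60, q.Prime → q ≠ 11 → q = 23 ∨
    ∀ f ∈ Finset.Icc 1 6, q ^ f ≤ 60 → q ^ f % 11 ≠ 1 := by
  decide +kernel

theorem principal_eleven_twentythree :
    ∃ P ∈ Ideal.primesOver (Ideal.span {((23 : ℕ) : ℤ)}) (𝓞 (CyclotomicField 11 ℚ)),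
      Submodule.IsPrincipal P := by
  have hΦ := geom_sum_zetaInt 11 (CyclotomicField 11 ℚ)
  simp only [Finset.sum_range_succ, Finset.sum_range_zero] at hΦ
  set z := zetaInt 11 (CyclotomicField 11 ℚ) with hz
  refine exists_principal_primesOver_of_root 11 (CyclotomicField 11 ℚ) 23 13 (by decide +kernel)
    (1 - z + z^3)
    (8 - 2*z - z^2 - 8*z^3 - 5*z^4 - 3*z^5 + 6*z^6 + 12*z^7 + 16*z^8 + 11*z^9)
    (-5 + z + 4*z^3 + 2*z^4 + z^5 - 4*z^6 - 7*z^7 - 9*z^8 - 6*z^9)
    95 (168 + 13*z + z^2) ?_ ?_ ?_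
  · push_cast
    linear_combination (-15 + 5*z + 11*z^2) * hΦ
  · push_cast
    linear_combination (8 - 3*z - 6*z^2) * hΦ
  · push_cast
    ring

theorem pid_eleven : IsPrincipalIdealRing (𝓞 (CyclotomicField 11 ℚ)) := by
  refine isPrincipalIdealRing_of_bound 11 (CyclotomicField 11 ℚ) 60 ?_ ?_
  · have h1 : √((11 : ℝ) ^ (11 - 2)) ≤ 48560 := by
      rw [Real.sqrt_le_left (by norm_num)]
      norm_num
    have h2 : (4 / π) ^ ((11 - 1) / 2) ≤ (4 / 3.14 : ℝ) ^ ((11 - 1) / 2) := by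
      gcongr
      exact pi_gt_d2.le
    calc _ ≤ (4 / 3.14 : ℝ) ^ ((11 - 1) / 2) *
          ((((11 - 1).factorial : ℕ) : ℝ) / ((11 - 1 : ℕ) : ℝ) ^ (11 - 1) * 48560) := by
          push_cast
          gcongr
      _ < _ := by
          norm_num [Nat.factorial]
  · intro q hqB hq hq11
    rcases check_eleven q (Finset.mem_Icc.mpr ⟨hq.two_le, hqB⟩) hq hq11 with rfl | h
    · right
      exact principal_eleven_twentythree
    · left
      exact orderOf_pow_gt_of_forall_Icc (L := 6) (by norm_num) hq hq11 (by norm_num) h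

end Fermat.Agent.Kummer
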