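import Fermat.Agent.Kummer.PIDLemmas

set_option autoImplicit false

open NumberField Real Polynomial

namespace Fermat.Agent.Kummer

instance fact_prime_thirteen : Fact (Nat.Prime 13) := ⟨by norm_num⟩
instance fact_prime_three' : Fact (Nat.Prime 3) := ⟨by norm_num⟩
instance fact_prime_fiftythree' : Fact (Nat.Prime 53) := ⟨by norm_num⟩
instance fact_prime_seventynine' : Fact (Nat.Prime 79) := ⟨by norm_num⟩
instance fact_prime_onethirtyone' : Fact (Nat.Prime 131) := ⟨by norm_num⟩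
instance fact_prime_onefiftyseven' : Fact (Nat.Prime 157) := ⟨by norm_num⟩

theorem check_thirteen : ∀ q ∈ Finset.Icc 2 310, q.Prime → q ≠ 13 →
    (q = 3 ∨ q = 53 ∨ q = 79 ∨ q = 131 ∨ q = 157) ∨
    ∀ f ∈ Finset.Icc 1 9, q ^ f ≤ 310 → q ^ f % 13 ≠ 1 := by
  decide +kernel

local notation "K13" => CyclotomicField 13 ℚ

theorem principal_thirteen_53 :
    ∃ P ∈ Ideal.primesOver (Ideal.span {((53 : ℕ) : ℤ)}) (𝓞 K13), Submodule.IsPrincipal P := by
  have hΦ := geom_sum_zetaInt 13 K13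
  simp only [Finset.sum_range_succ, Finset.sum_range_zero] at hΦ
  set z := zetaInt 13 K13 with hz
  refine exists_principal_primesOver_of_root 13 K13 53 16 (by decide +kernel)
    (1 - z + z^3)
    (25 + 10*z + 19*z^2 + 3*z^3 + 2*z^4 - 8*z^5 - 2*z^6 + 5*z^7 + 22*z^8 + 33*z^9 + 37*z^10 + 24*z^11)
    (-8 - 3*z - 6*z^2 - z^3 - z^4 + 2*z^5 - 2*z^7 - 7*z^8 - 10*z^9 - 11*z^10 - 7*z^11)
    77 (255 + 16*z + z^2) ?_ ?_ ?_
  · push_cast
    linear_combination (-28 + 13*z + 24*z^2) * hΦ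
  · push_cast
    linear_combination (8 - 4*z - 7*z^2) * hΦ
  · push_cast
    ring

theorem principal_thirteen_79 :
    ∃ P ∈ Ideal.primesOver (Ideal.span {((79 : ℕ) : ℤ)}) (𝓞 K13), Submodule.IsPrincipal P := by
  have hΦ := geom_sum_zetaInt 13 K13
  simp only [Finset.sum_range_succ, Finset.sum_range_zero] at hΦ
  set z := zetaInt 13 K13 with hz
  refine exists_principal_primesOver_of_root 13 K13 79 62 (by decide +kernel)
    (1 - z - z^4)
    (62 + 63*z + 49*z^2 + 8*z^3 + 29*z^4 + 51*z^5 + 59*z^6 + 26*z^7 + 14*z^8 + 24*z^9 + 42*z^10 + 27*z^11)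
    (-49 - 49*z - 38*z^2 - 6*z^3 - 23*z^4 - 40*z^5 - 46*z^6 - 20*z^7 - 11*z^8 - 19*z^9 - 33*z^10 - 21*z^11)
    (-187043) (-238329 - 3844*z - 62*z^2 - z^3) ?_ ?_ ?_
  · push_cast
    linear_combination (-17 + 18*z - 15*z^2 - 27*z^3) * hΦ
  · push_cast
    linear_combination (13 - 14*z + 12*z^2 + 21*z^3) * hΦ
  · push_cast
    ring

theorem principal_thirteen_131 :
    ∃ P ∈ Ideal.primesOver (Ideal.span {((131 : ℕ) : ℤ)}) (𝓞 K13), Submodule.IsPrincipal P := by
  have hΦ := geom_sum_zetaInt 13 K13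
  simp only [Finset.sum_range_succ, Finset.sum_range_zero] at hΦ
  set z := zetaInt 13 K13 with hz
  refine exists_principal_primesOver_of_root 13 K13 131 80 (by decide +kernel)
    (1 - z - z^3)
    (111 + 78*z + 17*z^2 + 67*z^3 + 84*z^4 + 40*z^5 + 46*z^6 + 69*z^7 + 48*z^8 + 33*z^9 + 41*z^10 + 28*z^11)
    (-68 - 47*z - 10*z^2 - 41*z^3 - 51*z^4 - 24*z^5 - 28*z^6 - 42*z^7 - 29*z^8 - 20*z^9 - 25*z^10 - 17*z^11)
    (-3909) (-6401 - 80*z - z^2) ?_ ?_ ?_
  · push_cast
    linear_combination (-20 - 13*z - 28*z^2) * hΦ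
  · push_cast
    linear_combination (12 + 8*z + 17*z^2) * hΦ
  · push_cast
    ring

theorem principal_thirteen_157 :
    ∃ P ∈ Ideal.primesOver (Ideal.span {((157 : ℕ) : ℤ)}) (𝓞 K13), Submodule.IsPrincipal P := by
  have hΦ := geom_sum_zetaInt 13 K13
  simp only [Finset.sum_range_succ, Finset.sum_range_zero] at hΦ
  set z := zetaInt 13 K13 with hz
  refine exists_principal_primesOver_of_root 13 K13 157 75 (by decide +kernel)
    (1 - z + z^2 + z^4)
    (89 + 86*z + 42*z^2 + 77*z^3 + 67*z^4 + 25*z^5 + 37*z^6 + 56*z^7 + 73*z^8 + 113*z^9 + 124*z^10 + 76*z^11)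
    (-43 - 41*z - 20*z^2 - 37*z^3 - 32*z^4 - 12*z^5 - 18*z^6 - 27*z^7 - 35*z^8 - 54*z^9 - 59*z^10 - 36*z^11)
    201568 (421949 + 5626*z + 75*z^2 + z^3) ?_ ?_ ?_
  · push_cast
    linear_combination (-68 + 65*z + 48*z^2 + 76*z^3) * hΦ
  · push_cast
    linear_combination (32 - 31*z - 23*z^2 - 36*z^3) * hΦ
  · push_cast
    ring

theorem principal_thirteen_3 :
    ∃ P ∈ Ideal.primesOver (Ideal.span {((3 : ℕ) : ℤ)}) (𝓞 K13), Submodule.IsPrincipal P := by
  have hΦ := geom_sum_zetaInt 13 K13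
  simp only [Finset.sum_range_succ, Finset.sum_range_zero] at hΦ
  set z := zetaInt 13 K13 with hz
  have hQmap : (X ^ 3 - X - 1 : ℤ[X]).map (Int.castRingHom (ZMod 3)) = X ^ 3 - X - 1 := by
    simp
  have hdeg : (X ^ 3 - X - 1 : (ZMod 3)[X]).natDegree = 3 := by
    compute_degree!
  refine exists_principal_primesOver 13 K13 3 (X ^ 3 - X - 1) ?_ ?_ ?_ (1 + z - z^3) ?_
  · monicity!
  · rw [hQmap]
    refine irreducible_of_degree_le_three_of_not_isRoot (by rw [hdeg]; simp) ?_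
    intro x
    simp only [IsRoot.def, eval_sub, eval_pow, eval_X, eval_one]
    revert x
    decide
  · rw [hQmap, cyclotomic_prime]
    refine ⟨-1 - X^2 - X^3 + X^5 - X^7 + X^8 + X^9, ?_⟩
    simp only [Finset.sum_range_succ, Finset.sum_range_zero]
    have h3 : (3 : (ZMod 3)[X]) = 0 := by
      have : ((3 : ℕ) : (ZMod 3)[X]) = 0 := CharP.cast_eq_zero _ 3
      exact_mod_cast this
    linear_combination (X^5 + X^6 + X^9 + X^10) * h3
  · have haeval : aeval z (X ^ 3 - X - 1 : ℤ[X]) = z ^ 3 - z - 1 := by simp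
    rw [haeval]
    apply le_antisymm
    · rw [Ideal.span_le]
      intro x hx
      rcases hx with rfl | hx
      · refine Ideal.mem_span_singleton.mpr
          ⟨-1 - z^2 - z^3 - 2*z^5 - z^7 - 2*z^8 + z^9 - 3*z^10, ?_⟩
        push_cast
        linear_combination (-(-4 + 3*z)) * hΦ
      · rw [Set.mem_singleton_iff] at hx
        subst hx
        exact Ideal.mem_span_singleton.mpr ⟨-1, by ring⟩
    · rw [Ideal.span_singleton_le_iff_mem, Ideal.mem_span_pair]
      exact ⟨0, -1, by ring⟩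

theorem pid_thirteen : IsPrincipalIdealRing (𝓞 K13) := by
  refine isPrincipalIdealRing_of_bound 13 K13 310 ?_ ?_
  · have h1 : √((13 : ℝ) ^ (13 - 2)) ≤ 1338740 := by
      rw [Real.sqrt_le_left (by norm_num)]
      norm_num
    have h2 : (4 / π) ^ ((13 - 1) / 2) ≤ (4 / 3.14 : ℝ) ^ ((13 - 1) / 2) := by
      gcongr
      exact pi_gt_d2.le
    calc _ ≤ (4 / 3.14 : ℝ) ^ ((13 - 1) / 2) *
          ((((13 - 1).factorial : ℕ) : ℝ) / ((13 - 1 : ℕ) : ℝ) ^ (13 - 1) * 1338740) := by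
          push_cast
          gcongr
      _ < _ := by
          norm_num [Nat.factorial]
  · intro q hqB hq hq13
    rcases check_thirteen q (Finset.mem_Icc.mpr ⟨hq.two_le, hqB⟩) hq hq13 with
      (rfl | rfl | rfl | rfl | rfl) | h
    · exact Or.inr principal_thirteen_3
    · exact Or.inr principal_thirteen_53
    · exact Or.inr principal_thirteen_79
    · exact Or.inr principal_thirteen_131
    · exact Or.inr principal_thirteen_157
    · left
      exact orderOf_pow_gt_of_forall_Icc (L := 9) (by norm_num) hq hq13 (by norm_num) h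

end Fermat.Agent.Kummer
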