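import Fermat.Agent.Kummer.PID7
import Fermat.Agent.Kummer.PID11
import Fermat.Agent.Kummer.PID13
import Fermat.Agent.Kummer.KummerCert5
import Fermat.Agent.Kummer.KummerCert7
import Fermat.Agent.Kummer.KummerCert11
import Fermat.Agent.Kummer.KummerCert13

/-!
# The primes 5, 7, 11, 13 are good
-/

set_option autoImplicit false

namespace Fermat.Agent.Kummer

theorem goodPrime_five : GoodPrime 5 where
  prime := by norm_num
  five_le := le_refl _
  pid := IsCyclotomicExtension.Rat.five_pid (CyclotomicField 5 ℚ)
  kummer := kummerLemma_five

theorem goodPrime_seven : GoodPrime 7 where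
  prime := by norm_num
  five_le := by norm_num
  pid := pid_seven
  kummer := kummerLemma_seven

theorem goodPrime_eleven : GoodPrime 11 where
  prime := by norm_num
  five_le := by norm_num
  pid := pid_eleven
  kummer := kummerLemma_eleven

theorem goodPrime_thirteen : GoodPrime 13 where
  prime := by norm_num
  five_le := by norm_num
  pid := pid_thirteen
  kummer := kummerLemma_thirteen

end Fermat.Agent.Kummer
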