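import Mathlib

/-!
# Abstract linear algebra behind Kummer's lemma

If a commutative group `E` is generated by `card ι` elements and a homomorphism `Ψ` from `E` to an
`𝔽_p`-vector space takes `card ι` linearly independent values, then `ker Ψ = E ^ p`.
-/

set_option autoImplicit false

namespace Fermat.Agent.Kummer.KL

theorem exists_pow_eq_of_map_eq_zero {E : Type*} [CommGroup E] (p : ℕ) [Fact p.Prime]
    {W : Type*} [AddCommGroup W] [Module (ZMod p) W]
    {ι κ : Type*} [Fintype ι] [Fintype κ] (hcard : Fintype.card ι ≤ Fintype.card κ)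
    (γ : ι → E) (hγ : ∀ u : E, ∃ e : ι → ℤ, u = ∏ i, γ i ^ e i)
    (Ψ : E → W) (hΨ : ∀ u v, Ψ (u * v) = Ψ u + Ψ v)
    (g : κ → E) (hli : LinearIndependent (ZMod p) (fun k => Ψ (g k)))
    (u : E) (hu : Ψ u = 0) : ∃ v : E, u = v ^ p := by
  classical
  -- `Ψ` as a monoid hom
  let Ψ' : E →* Multiplicative W :=
    { toFun := fun u => Multiplicative.ofAdd (Ψ u)
      map_one' := by
        have h := hΨ 1 1
        rw [mul_one] at h
        have h0 : Ψ 1 = 0 := by simpa using h
        rw [h0]; rfl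
      map_mul' := fun u v => by rw [hΨ]; rfl }
  have hΨzpow : ∀ (x : E) (n : ℤ), Ψ (x ^ n) = (n : ZMod p) • Ψ x := by
    intro x n
    have h := map_zpow Ψ' x n
    have h' : Ψ (x ^ n) = n • Ψ x := by
      simpa [Ψ'] using congrArg Multiplicative.toAdd h
    rw [h', Int.cast_smul_eq_zsmul]
  have hΨprod : ∀ e : ι → ℤ, Ψ (∏ i, γ i ^ e i) = ∑ i, (e i : ZMod p) • Ψ (γ i) := by
    intro e
    have h' : Ψ (∏ i, γ i ^ e i) = ∑ i, Ψ (γ i ^ e i) := by
      have h := map_prod Ψ' (fun i => γ i ^ e i) Finset.univ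
      have h2 := congrArg Multiplicative.toAdd h
      rw [toAdd_prod] at h2
      exact h2
    rw [h']
    exact Finset.sum_congr rfl fun i _ => hΨzpow _ _
  let L : (ι → ZMod p) →ₗ[ZMod p] W := Fintype.linearCombination (ZMod p) (fun i => Ψ (γ i))
  have hL : ∀ e : ι → ℤ, Ψ (∏ i, γ i ^ e i) = L (fun i => (e i : ZMod p)) := by
    intro e
    rw [hΨprod, Fintype.linearCombination_apply]
  choose a ha using fun k => hγ (g k)
  let abar : κ → (ι → ZMod p) := fun k i => (a k i : ZMod p)
  have hcomp : (fun k => Ψ (g k)) = L ∘ abar := by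
    funext k
    rw [Function.comp_apply, ← hL, ← ha]
  rw [hcomp] at hli
  have hli' : LinearIndependent (ZMod p) abar := hli.of_comp L
  have hfin : Module.finrank (ZMod p) (ι → ZMod p) = Fintype.card ι := Module.finrank_fintype_fun_eq_card _
  have hcard' : Fintype.card κ = Module.finrank (ZMod p) (ι → ZMod p) :=
    le_antisymm hli'.fintype_card_le_finrank (hfin ▸ hcard)
  have hspan := hli'.span_eq_top_of_card_eq_finrank' hcard'
  have hinj : ∀ x, L x = 0 → x = 0 := by
    intro x hx
    have hxmem : x ∈ Submodule.span (ZMod p) (Set.range abar) := hspan ▸ Submodule.mem_top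
    obtain ⟨c, rfl⟩ := (Submodule.mem_span_range_iff_exists_fun (ZMod p)).mp hxmem
    rw [map_sum] at hx
    simp only [map_smul] at hx
    have hc := Fintype.linearIndependent_iff.mp hli c hx
    simp [hc]
  obtain ⟨e, rfl⟩ := hγ u
  rw [hL] at hu
  have he := hinj _ hu
  have hdvd : ∀ i, (p : ℤ) ∣ e i := fun i =>
    (ZMod.intCast_zmod_eq_zero_iff_dvd (e i) p).mp (congrFun he i)
  choose e' he' using hdvd
  refine ⟨∏ i, γ i ^ e' i, ?_⟩
  rw [← Finset.prod_pow]
  refine Finset.prod_congr rfl fun i _ => ?_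
  rw [he' i, mul_comm, zpow_mul, zpow_natCast]

end Fermat.Agent.Kummer.KL
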