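import Fermat.Agent.Kummer.Defs
import Fermat.Agent.Kummer.KummerAbstract

/-!
# Kummer's lemma from a finite certificate

`W = 𝔽_p[t]/(t^(p-2))`.  The ring hom `𝓞 K → W[ε]`, `ζ ↦ 1 + t + ε` gives the logarithmic derivative
`Ψ : (𝓞 K)ˣ → W`, which kills the units congruent to an integer mod `p`.  If the values of `Ψ` on the
cyclotomic units `1 + ζ + ⋯ + ζ^(k-1)`, `2 ≤ k ≤ (p+1)/2`, are linearly independent, Kummer's lemma
follows from Dirichlet's unit theorem.
-/

set_option autoImplicit false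

open NumberField Polynomial

namespace Fermat.Agent.Kummer.KL

/-- `𝔽_p[t]/(t^n)`. -/
abbrev TruncRing (p n : ℕ) : Type := AdjoinRoot ((X : (ZMod p)[X]) ^ n)

/-- The class of `t`. -/
noncomputable def tt (p n : ℕ) : TruncRing p n := AdjoinRoot.root _

lemma tt_pow (p n : ℕ) : tt p n ^ n = 0 := by
  have h := AdjoinRoot.eval₂_root ((X : (ZMod p)[X]) ^ n)
  simpa [tt] using h

lemma natCast_truncRing (p n : ℕ) : (p : TruncRing p n) = 0 := by
  have h2 : algebraMap (ZMod p) (TruncRing p n) (p : ZMod p) = (p : TruncRing p n) := map_natCast _ _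
  rw [← h2, ZMod.natCast_self, map_zero]


instance nontrivial_truncRing (p n : ℕ) [Fact p.Prime] : Nontrivial (TruncRing p (n + 1)) := by
  apply AdjoinRoot.nontrivial
  rw [degree_X_pow]
  exact_mod_cast Nat.succ_ne_zero n

instance charP_dual (p n : ℕ) [Fact p.Prime] : CharP (DualNumber (TruncRing p (n + 1))) p :=
  (Algebra.charP_iff (ZMod p) (DualNumber (TruncRing p (n + 1))) p).mp inferInstance

/-- The element `1 + t + ε`. -/
noncomputable def yy (p n : ℕ) : DualNumber (TruncRing p n) :=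
  TrivSqZeroExt.inl (1 + tt p n) + DualNumber.eps

lemma yy_fst (p n : ℕ) : (yy p n).fst = 1 + tt p n := by simp [yy]

lemma yy_snd (p n : ℕ) : (yy p n).snd = 1 := by simp [yy]

lemma yy_sub_one_pow (p n : ℕ) : (yy p n - 1) ^ (n + 1) = 0 := by
  ext
  · rw [TrivSqZeroExt.fst_pow, TrivSqZeroExt.fst_sub, yy_fst, TrivSqZeroExt.fst_one,
      add_sub_cancel_left, pow_succ, tt_pow, zero_mul, TrivSqZeroExt.fst_zero]
  · rw [TrivSqZeroExt.snd_pow, TrivSqZeroExt.fst_sub, yy_fst, TrivSqZeroExt.fst_one,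
      add_sub_cancel_left, Nat.pred_succ, tt_pow, zero_smul, smul_zero, TrivSqZeroExt.snd_zero]

lemma eval_cyclotomic_yy (p n : ℕ) [Fact p.Prime] (hp : p = n + 3) :
    aeval (yy p (n + 1)) (cyclotomic p ℤ) = 0 := by
  have h1 : cyclotomic p (DualNumber (TruncRing p (n + 1))) = (X - 1) ^ (p - 1) := by
    have h := cyclotomic_mul_prime_pow_eq (DualNumber (TruncRing p (n + 1))) (p := p) (m := 1)
      (Nat.Prime.not_dvd_one Fact.out) (k := 1) one_pos
    simpa using h
  rw [aeval_def, eval₂_eq_eval_map, map_cyclotomic, h1, eval_pow, eval_sub, eval_X, eval_one,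
    show p - 1 = n + 1 + 1 by omega]
  exact yy_sub_one_pow p (n + 1)

section Cyclo

instance neZero_of_fact_prime (p : ℕ) [Fact p.Prime] : NeZero p := ⟨(Fact.out : p.Prime).ne_zero⟩

/-- Under `import Mathlib` the `ℚ`-algebra structure found on `CyclotomicField p ℚ` is
`DivisionRing.toRatAlgebra`, for which the Mathlib instance is not found syntactically. -/
instance isCyclotomicExtension_cyclotomicField_rat (p : ℕ) :
    IsCyclotomicExtension {p} ℚ (CyclotomicField p ℚ) := by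
  have h : (CyclotomicField.algebra p ℚ) = DivisionRing.toRatAlgebra := Subsingleton.elim _ _
  rw [← h]
  infer_instance

variable (p n : ℕ) [Fact p.Prime] (hp : p = n + 3)

local notation "K" => CyclotomicField p ℚ

/-- The primitive root of unity in `𝓞 K`. -/
noncomputable def zetaInt : 𝓞 K := (IsCyclotomicExtension.zeta_spec p ℚ K).toInteger

lemma zetaInt_isPrimitiveRoot : IsPrimitiveRoot (zetaInt p) p :=
  (IsCyclotomicExtension.zeta_spec p ℚ K).toInteger_isPrimitiveRoot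

lemma minpoly_zetaInt : minpoly ℤ (zetaInt p) = cyclotomic p ℤ := by
  have h := cyclotomic_eq_minpoly (IsCyclotomicExtension.zeta_spec p ℚ K) (NeZero.pos p)
  rw [h, ← minpoly.algebraMap_eq RingOfIntegers.coe_injective (zetaInt p)]
  rfl

include hp in
lemma aeval_yy_minpoly :
    aeval (yy p (n + 1))
      (minpoly ℤ (IsCyclotomicExtension.zeta_spec p ℚ K).integralPowerBasis.gen) = 0 := by
  rw [IsPrimitiveRoot.integralPowerBasis_gen]
  exact (congrArg _ (minpoly_zetaInt p)).trans (eval_cyclotomic_yy p n hp)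

/-- The ring hom `𝓞 K → W[ε]`, `ζ ↦ 1 + t + ε`. -/
noncomputable def piTwo : 𝓞 K →ₐ[ℤ] DualNumber (TruncRing p (n + 1)) :=
  (IsCyclotomicExtension.zeta_spec p ℚ K).integralPowerBasis.lift (yy p (n + 1))
    (aeval_yy_minpoly p n hp)

lemma piTwo_zeta : piTwo p n hp (zetaInt p) = yy p (n + 1) := by
  have h := (IsCyclotomicExtension.zeta_spec p ℚ K).integralPowerBasis.lift_gen (yy p (n + 1))
    (aeval_yy_minpoly p n hp)
  rw [IsPrimitiveRoot.integralPowerBasis_gen] at h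
  exact h

/-- The logarithmic derivative. -/
noncomputable def logDeriv (u : (𝓞 K)ˣ) : TruncRing p (n + 1) :=
  (piTwo p n hp (u : 𝓞 K)).snd * (piTwo p n hp ((u⁻¹ : (𝓞 K)ˣ) : 𝓞 K)).fst

lemma fst_mul_fst_inv (u : (𝓞 K)ˣ) :
    (piTwo p n hp (u : 𝓞 K)).fst * (piTwo p n hp ((u⁻¹ : (𝓞 K)ˣ) : 𝓞 K)).fst = 1 := by
  rw [← TrivSqZeroExt.fst_mul, ← map_mul, Units.mul_inv, map_one, TrivSqZeroExt.fst_one]

lemma logDeriv_mul (u v : (𝓞 K)ˣ) :
    logDeriv p n hp (u * v) = logDeriv p n hp u + logDeriv p n hp v := by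
  have hu := fst_mul_fst_inv p n hp u
  have hv := fst_mul_fst_inv p n hp v
  simp only [logDeriv, mul_inv, Units.val_mul, map_mul, TrivSqZeroExt.snd_mul,
    TrivSqZeroExt.fst_mul, smul_eq_mul, MulOpposite.smul_eq_mul_unop, MulOpposite.unop_op]
  linear_combination ((piTwo p n hp (v : 𝓞 K)).snd * (piTwo p n hp ((v⁻¹ : (𝓞 K)ˣ) : 𝓞 K)).fst) * hu
    + ((piTwo p n hp (u : 𝓞 K)).snd * (piTwo p n hp ((u⁻¹ : (𝓞 K)ˣ) : 𝓞 K)).fst) * hv

lemma logDeriv_eq_zero_of_dvd (u : (𝓞 K)ˣ) (a : ℤ) (h : (p : 𝓞 K) ∣ (u : 𝓞 K) - (a : 𝓞 K)) :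
    logDeriv p n hp u = 0 := by
  obtain ⟨x, hx⟩ := h
  have h1 : (u : 𝓞 K) = (a : 𝓞 K) + (p : 𝓞 K) * x := by rw [← hx]; ring
  have h2 : piTwo p n hp (u : 𝓞 K) = (a : DualNumber (TruncRing p (n + 1))) := by
    rw [h1, map_add, map_mul, map_intCast, map_natCast, CharP.cast_eq_zero, zero_mul, add_zero]
  rw [logDeriv, h2, TrivSqZeroExt.snd_intCast, zero_mul]

lemma logDeriv_eq_of_mul_eq (u : (𝓞 K)ˣ) (Q : TruncRing p (n + 1))
    (h : Q * (piTwo p n hp (u : 𝓞 K)).fst = (piTwo p n hp (u : 𝓞 K)).snd) :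
    logDeriv p n hp u = Q := by
  rw [logDeriv, ← h, mul_assoc, fst_mul_fst_inv, mul_one]

lemma piTwo_geom_sum_fst (k : ℕ) :
    (piTwo p n hp (∑ j ∈ Finset.range k, zetaInt p ^ j)).fst =
      ∑ j ∈ Finset.range k, (1 + tt p (n + 1)) ^ j := by
  rw [map_sum, TrivSqZeroExt.fst_sum]
  refine Finset.sum_congr rfl fun j _ => ?_
  rw [map_pow, piTwo_zeta, TrivSqZeroExt.fst_pow, yy_fst]

lemma piTwo_geom_sum_snd (k : ℕ) :
    (piTwo p n hp (∑ j ∈ Finset.range k, zetaInt p ^ j)).snd =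
      ∑ j ∈ Finset.range k, (j : TruncRing p (n + 1)) * (1 + tt p (n + 1)) ^ (j - 1) := by
  rw [map_sum, TrivSqZeroExt.snd_sum]
  refine Finset.sum_congr rfl fun j _ => ?_
  rw [map_pow, piTwo_zeta, TrivSqZeroExt.snd_pow, yy_fst, yy_snd, smul_eq_mul, mul_one,
    nsmul_eq_mul, Nat.pred_eq_sub_one]

omit [Fact p.Prime] in
/-- Dirichlet: the unit group is generated by `rank + 1` elements. -/
lemma exists_units_generators :
    ∃ γ : Option (Fin (Units.rank K)) → (𝓞 K)ˣ,
      ∀ u : (𝓞 K)ˣ, ∃ e : Option (Fin (Units.rank K)) → ℤ, u = ∏ i, γ i ^ e i := by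
  obtain ⟨τ, hτ⟩ := IsCyclic.exists_generator (α := Units.torsion K)
  refine ⟨fun i => i.elim (τ : (𝓞 K)ˣ) (Units.fundSystem K), fun u => ?_⟩
  obtain ⟨⟨ζ, e⟩, hu, -⟩ := Units.exist_unique_eq_mul_prod K u
  obtain ⟨a, ha⟩ := Subgroup.mem_zpowers_iff.mp (hτ ζ)
  refine ⟨fun i => i.elim a e, ?_⟩
  rw [Fintype.prod_option]
  simp only [Option.elim_none, Option.elim_some]
  rw [hu, ← ha]
  simp

lemma rank_add_one (m : ℕ) (hm : p = 2 * m + 1) (h3 : 2 < p) : Units.rank K + 1 = m := by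
  have h1 := IsCyclotomicExtension.Rat.nrRealPlaces_eq_zero (n := p) K h3
  have h2 := IsCyclotomicExtension.Rat.nrComplexPlaces_eq_totient_div_two p K
  rw [Nat.totient_prime Fact.out] at h2
  rw [Units.rank, InfinitePlace.card_eq_nrRealPlaces_add_nrComplexPlaces, h1, h2]
  omega

end Cyclo

lemma linearIndependent_tt_pow (p n : ℕ) [Fact p.Prime] :
    LinearIndependent (ZMod p) (fun l : Fin n => tt p n ^ (l : ℕ)) := by
  have hmonic : ((X : (ZMod p)[X]) ^ n).Monic := monic_X_pow n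
  have hdim : (AdjoinRoot.powerBasis' hmonic).dim = n := by
    rw [AdjoinRoot.powerBasis'_dim, natDegree_X_pow]
  have h := (AdjoinRoot.powerBasis' hmonic).basis.linearIndependent.comp (Fin.cast hdim.symm)
    (Fin.cast_injective _)
  have heq : (fun l : Fin n => tt p n ^ (l : ℕ)) =
      (⇑(AdjoinRoot.powerBasis' hmonic).basis ∘ Fin.cast hdim.symm) := by
    funext l
    simp [tt]
  rw [heq]
  exact h

/-- Linear independence in `𝔽_p[t]/(t^n)` from a right inverse of the coefficient matrix. -/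
lemma linearIndependent_of_matrix (p n m : ℕ) [Fact p.Prime]
    (q : Matrix (Fin m) (Fin n) (ZMod p)) (R : Matrix (Fin n) (Fin m) (ZMod p)) (h : q * R = 1) :
    LinearIndependent (ZMod p) (fun i => ∑ l, q i l • tt p n ^ (l : ℕ)) := by
  rw [Fintype.linearIndependent_iff]
  intro c hc
  have h1 : ∑ l, (∑ i, c i * q i l) • tt p n ^ (l : ℕ) = 0 := by
    rw [← hc]
    simp only [Finset.smul_sum, Finset.sum_smul, smul_smul]
    exact Finset.sum_comm
  have h2 := Fintype.linearIndependent_iff.mp (linearIndependent_tt_pow p n) _ h1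
  have h3 : Matrix.vecMul c q = 0 := by
    funext l
    simpa [Matrix.vecMul, dotProduct] using h2 l
  have h4 : Matrix.vecMul c (q * R) = 0 := by
    rw [← Matrix.vecMul_vecMul, h3, Matrix.zero_vecMul]
  rw [h, Matrix.vecMul_one] at h4
  exact fun i => congrFun h4 i

/-- **Kummer's lemma from a certificate.** -/
theorem kummerLemma_of_cert (p n m : ℕ) [Fact p.Prime] (hp : p = n + 3) (hm : p = 2 * m + 1)
    (Q : Fin m → TruncRing p (n + 1))
    (hQ : ∀ i : Fin m, Q i * (∑ j ∈ Finset.range (i + 2), (1 + tt p (n + 1)) ^ j) =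
      ∑ j ∈ Finset.range (i + 2), (j : TruncRing p (n + 1)) * (1 + tt p (n + 1)) ^ (j - 1))
    (hli : LinearIndependent (ZMod p) Q) : KummerLemma p (CyclotomicField p ℚ) := by
  intro u ⟨a, ha⟩
  obtain ⟨γ, hγ⟩ := exists_units_generators p
  have hcop : ∀ i : Fin m, ((i : ℕ) + 2).Coprime p := by
    intro i
    refine Nat.Coprime.symm ((Nat.Prime.coprime_iff_not_dvd Fact.out).mpr
      (Nat.not_dvd_of_pos_of_lt (by omega) ?_))
    have := i.isLt
    omega
  let g : Fin m → (𝓞 (CyclotomicField p ℚ))ˣ := fun i =>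
    ((zetaInt_isPrimitiveRoot p).geom_sum_isUnit (by omega) (hcop i)).unit
  have hg : ∀ i, logDeriv p n hp (g i) = Q i := by
    intro i
    apply logDeriv_eq_of_mul_eq
    have : ((g i : (𝓞 (CyclotomicField p ℚ))ˣ) : 𝓞 (CyclotomicField p ℚ)) =
      ∑ j ∈ Finset.range ((i : ℕ) + 2), zetaInt p ^ j := IsUnit.unit_spec _
    rw [this, piTwo_geom_sum_fst, piTwo_geom_sum_snd]
    exact hQ i
  refine exists_pow_eq_of_map_eq_zero p (κ := Fin m) ?_ γ hγ (logDeriv p n hp)
    (logDeriv_mul p n hp) g ?_ u (logDeriv_eq_zero_of_dvd p n hp u a ha)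
  · rw [Fintype.card_option, Fintype.card_fin, Fintype.card_fin,
      rank_add_one p m hm (by omega)]
  · simpa only [hg] using hli

end Fermat.Agent.Kummer.KL
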