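import Fermat.Agent.Kummer.CaseI
import Fermat.Agent.Kummer.CaseII
import Fermat.Prelude.Def_FLTPrelim_FreyPackage

/-!
# Fermat's Last Theorem for good primes; no Frey package with a good prime exponent
-/

set_option autoImplicit false

namespace Fermat.Agent.Kummer

/-- FLT for coprime integers and a good prime exponent. -/
theorem flt_coprime {p : ℕ} (h : GoodPrime p) {a b c : ℤ} (ha : a ≠ 0) (hb : b ≠ 0) (hc : c ≠ 0)
    (hab : IsCoprime a b) : a ^ p + b ^ p ≠ c ^ p := by
  intro H
  have hodd : Odd p := h.prime.odd_of_ne_two (by have := h.five_le; omega)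
  have hpos : 0 < p := h.prime.pos
  have hsucc : p - 1 + 1 = p := Nat.sub_add_cancel h.prime.one_le
  -- pairwise coprimality
  have hca : IsCoprime c a := by
    rw [← IsCoprime.pow_left_iff hpos, ← H]
    have h3 : a ^ p + b ^ p = b ^ p + a ^ (p - 1) * a := by rw [← pow_succ, hsucc]; ring
    rw [h3]
    exact (hab.symm.pow_left).add_mul_right_left _
  have hcb : IsCoprime c b := by
    rw [← IsCoprime.pow_left_iff hpos, ← H]
    have h3 : a ^ p + b ^ p = a ^ p + b ^ (p - 1) * b := by rw [← pow_succ, hsucc]
    rw [h3]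
    exact (hab.pow_left).add_mul_right_left _
  by_cases hp : (p : ℤ) ∣ a * b * c
  · have hpp : Prime (p : ℤ) := Nat.prime_iff_prime_int.mp h.prime
    rcases hpp.dvd_or_dvd hp with hp' | hpc
    · rcases hpp.dvd_or_dvd hp' with hpa | hpb
      · refine caseII h (a := c) (b := -b) (c := a) hcb.neg_right ha hpa ?_
        rw [hodd.neg_pow, ← H]; ring
      · refine caseII h (a := c) (b := -a) (c := b) hca.neg_right hb hpb ?_
        rw [hodd.neg_pow, ← H]; ring
    · exact caseII h hab hc hpc H
  · exact caseI h hab hp H

/-- There is no Frey package whose exponent is a good prime. -/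
theorem false_of_freyPackage (P : FreyPackage) (h : GoodPrime P.p) : False := by
  have hab : IsCoprime P.a P.b := by
    rw [Int.isCoprime_iff_gcd_eq_one]
    have := P.hgcdab
    rw [← Int.coe_gcd] at this
    exact_mod_cast this
  exact flt_coprime h P.ha0 P.hb0 P.hc0 hab P.hFLT

end Fermat.Agent.Kummer
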