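import Fermat.Agent.Kummer.PIDLemmas

set_option autoImplicit false

open NumberField Real

namespace Fermat.Agent.Kummer

instance fact_prime_seven : Fact (Nat.Prime 7) := ⟨by norm_num⟩

theorem check_seven : ∀ q ∈ Finset.Icc 2 4, q.Prime → q ≠ 7 →
    ∀ f ∈ Finset.Icc 1 3, q ^ f ≤ 4 → q ^ f % 7 ≠ 1 := by
  decide +kernel

theorem pid_seven : IsPrincipalIdealRing (𝓞 (CyclotomicField 7 ℚ)) := by
  refine isPrincipalIdealRing_of_bound 7 (CyclotomicField 7 ℚ) 4 ?_ ?_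
  · have h1 : √((7 : ℝ) ^ (7 - 2)) ≤ 130 := by
      rw [Real.sqrt_le_left (by norm_num)]
      norm_num
    have h2 : (4 / π) ^ ((7 - 1) / 2) ≤ (4 / 3.14 : ℝ) ^ ((7 - 1) / 2) := by
      gcongr
      exact pi_gt_d2.le
    calc _ ≤ (4 / 3.14 : ℝ) ^ ((7 - 1) / 2) *
          ((((7 - 1).factorial : ℕ) : ℝ) / ((7 - 1 : ℕ) : ℝ) ^ (7 - 1) * 130) := by
          push_cast
          gcongr
      _ < _ := by
          norm_num [Nat.factorial]
  · intro q hqB hq hq7
    left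
    exact orderOf_pow_gt_of_forall_Icc (L := 3) (by norm_num) hq hq7 (by norm_num)
      (check_seven q (Finset.mem_Icc.mpr ⟨hq.two_le, hqB⟩) hq hq7)

end Fermat.Agent.Kummer
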