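import Fermat.Agent.Kummer.Defs

/-!
# Tools to prove that `ℤ[ζ_p]` is a PID (Minkowski bound + Kummer–Dedekind certificates)
-/

set_option autoImplicit false

open NumberField Polynomial Ideal IsCyclotomicExtension IsCyclotomicExtension.Rat
  RingOfIntegers NumberField.Ideal UniqueFactorizationMonoid

namespace Fermat.Agent.Kummer

variable (p : ℕ) [hp : Fact p.Prime] (K : Type) [Field K] [NumberField K]
  [hK : IsCyclotomicExtension {p} ℚ K]

/-- The chosen primitive root in `𝓞 K`. -/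
noncomputable abbrev zetaInt : 𝓞 K := (zeta_spec p ℚ K).toInteger

theorem not_dvd_exponent_zetaInt (q : ℕ) [hq : Fact q.Prime] : ¬ q ∣ exponent (zetaInt p K) := by
  rw [exponent_eq_one_iff.mpr <| adjoin_singleton_eq_top (zeta_spec p ℚ K)]
  exact hq.out.not_dvd_one

theorem map_minpoly_zetaInt (q : ℕ) :
    (minpoly ℤ (zetaInt p K)).map (Int.castRingHom (ZMod q)) = cyclotomic p (ZMod q) := by
  rw [← map_cyclotomic_int, cyclotomic_eq_minpoly (zeta_spec p ℚ K) (NeZero.pos _),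
      ← (zeta_spec p ℚ K).coe_toInteger, ← RingOfIntegers.minpoly_coe (zetaInt p K)]
  rfl

/-- Kummer–Dedekind certificate for a principal prime above `q`. -/
theorem exists_principal_primesOver (q : ℕ) [hq : Fact q.Prime] (Q : ℤ[X]) (hQ : Q.Monic)
    (hirr : Irreducible (Q.map (Int.castRingHom (ZMod q))))
    (hdvd : Q.map (Int.castRingHom (ZMod q)) ∣ cyclotomic p (ZMod q))
    (α : 𝓞 K) (hα : span {(q : 𝓞 K), aeval (zetaInt p K) Q} = span {α}) :
    ∃ P ∈ primesOver (span {(q : ℤ)}) (𝓞 K), Submodule.IsPrincipal P := by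
  have h₁ := not_dvd_exponent_zetaInt p K q
  have hmem : Q.map (Int.castRingHom (ZMod q)) ∈ monicFactorsMod (zetaInt p K) q := by
    rw [Multiset.mem_toFinset, Polynomial.mem_normalizedFactors_iff
      (map_monic_ne_zero (minpoly.monic (zetaInt p K).isIntegral)), map_minpoly_zetaInt]
    exact ⟨hirr, hQ.map _, hdvd⟩
  refine ⟨((primesOverSpanEquivMonicFactorsMod h₁).symm ⟨_, hmem⟩ : Ideal (𝓞 K)),
    ((primesOverSpanEquivMonicFactorsMod h₁).symm ⟨_, hmem⟩).prop, ?_⟩
  rw [primesOverSpanEquivMonicFactorsMod_symm_apply_eq_span h₁ hmem, hα]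
  exact ⟨α, rfl⟩

/-- Above an unramified prime `q` there is a prime with residue degree the order of `q` mod `p`. -/
theorem exists_primesOver_inertiaDeg (q : ℕ) [hq : Fact q.Prime] (hqp : q ≠ p) :
    ∃ P ∈ primesOver (span {(q : ℤ)}) (𝓞 K), P.inertiaDeg ℤ = orderOf (q : ZMod p) := by
  obtain ⟨⟨P, hP1, hP2⟩⟩ := (span {(q : ℤ)}).nonempty_primesOver (S := 𝓞 K)
  refine ⟨P, ⟨hP1, hP2⟩, ?_⟩
  have hndvd : ¬ q ∣ p := fun h => hqp ((Nat.prime_dvd_prime_iff_eq hq.out hp.out).mp h)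
  exact inertiaDeg_eq_of_not_dvd q K P hndvd

/-- The prime above `p` is principal. -/
theorem exists_principal_primesOver_self :
    ∃ P ∈ primesOver (span {(p : ℤ)}) (𝓞 K), Submodule.IsPrincipal P := by
  obtain ⟨⟨P, hP1, hP2⟩⟩ := (span {(p : ℤ)}).nonempty_primesOver (S := 𝓞 K)
  refine ⟨P, ⟨hP1, hP2⟩, ?_⟩
  rw [eq_span_zeta_sub_one_of_liesOver' p K (zeta_spec p ℚ K) P]
  exact ⟨_, rfl⟩

end Fermat.Agent.Kummer

namespace Fermat.Agent.Kummer

open Module InfinitePlace Nat Real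

variable (p : ℕ) [hp : Fact p.Prime] (K : Type) [Field K] [NumberField K]
  [hK : IsCyclotomicExtension {p} ℚ K]

/-- The Minkowski bound of the `p`-th cyclotomic field, made explicit. -/
theorem minkowski_eq :
    (4 / π) ^ nrComplexPlaces K *
      ((finrank ℚ K)! / (finrank ℚ K) ^ (finrank ℚ K) * √|(discr K : ℝ)|) =
    (4 / π) ^ ((p - 1) / 2) * (((p - 1)! : ℝ) / ((p - 1 : ℕ) : ℝ) ^ (p - 1) * √((p : ℝ) ^ (p - 2))) := by
  rw [discr_prime p K, IsCyclotomicExtension.finrank (n := p) K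
    (Polynomial.cyclotomic.irreducible_rat hp.out.pos), nrComplexPlaces_eq_totient_div_two p, totient_prime hp.out]
  congr 3
  push_cast
  rw [abs_mul, abs_pow, abs_pow, abs_neg, abs_one, one_pow, one_mul, Nat.abs_cast]

/-- Main criterion: `𝓞 K` is a PID as soon as the Minkowski bound is `< B + 1` and every prime
`q ≤ B`, `q ≠ p`, either has `B < q ^ ord_p(q)` or has a principal prime above it. -/
theorem isPrincipalIdealRing_of_bound (B : ℕ)
    (hB : (4 / π) ^ ((p - 1) / 2) *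
      (((p - 1)! : ℝ) / ((p - 1 : ℕ) : ℝ) ^ (p - 1) * √((p : ℝ) ^ (p - 2))) < B + 1)
    (h : ∀ q : ℕ, q ≤ B → q.Prime → q ≠ p → B < q ^ orderOf (q : ZMod p) ∨
      ∃ P ∈ primesOver (span {(q : ℤ)}) (𝓞 K), Submodule.IsPrincipal P) :
    IsPrincipalIdealRing (𝓞 K) := by
  have : IsGalois ℚ K := isGalois {p} ℚ K
  have hfloor : ⌊(4 / π) ^ nrComplexPlaces K *
      ((finrank ℚ K)! / (finrank ℚ K) ^ (finrank ℚ K) * √|(discr K : ℝ)|)⌋₊ ≤ B := by
    rw [minkowski_eq p K]
    exact Nat.lt_succ_iff.mp ((Nat.floor_lt (by positivity)).mpr (by exact_mod_cast hB))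
  refine isPrincipalIdealRing_of_isPrincipal_of_lt_or_isPrincipal_of_mem_primesOver_of_mem_Icc
    (fun q hq hqp => ?_)
  have hqB : q ≤ B := (Finset.mem_Icc.mp hq).2.trans hfloor
  have : Fact q.Prime := ⟨hqp⟩
  by_cases hqeq : q = p
  · subst hqeq
    obtain ⟨P, hP, hPp⟩ := exists_principal_primesOver_self q K
    exact ⟨P, hP, Or.inr hPp⟩
  · rcases h q hqB hqp hqeq with h1 | ⟨P, hP, hPp⟩
    · obtain ⟨P, hP, hPf⟩ := exists_primesOver_inertiaDeg p K q hqeq
      exact ⟨P, hP, Or.inl (by rw [hPf]; exact lt_of_le_of_lt hfloor h1)⟩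
    · exact ⟨P, hP, Or.inr hPp⟩

end Fermat.Agent.Kummer

namespace Fermat.Agent.Kummer

theorem orderOf_pow_gt_of_forall {p B q : ℕ} (hp : 1 < p) (hcop : q.Coprime p)
    (h : ∀ f : ℕ, 0 < f → q ^ f ≤ B → q ^ f % p ≠ 1) : B < q ^ orderOf (q : ZMod p) := by
  by_contra hcon
  push Not at hcon
  have hpos : 0 < orderOf (q : ZMod p) := by
    have : NeZero p := ⟨by omega⟩
    have hu : IsUnit (q : ZMod p) := (ZMod.isUnit_iff_coprime q p).mpr hcop
    obtain ⟨u, hu⟩ := hu
    rw [← hu, orderOf_units]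
    exact orderOf_pos u
  refine h _ hpos hcon ?_
  have h1 : ((q ^ orderOf (q : ZMod p) : ℕ) : ZMod p) = ((1 : ℕ) : ZMod p) := by
    push_cast
    exact pow_orderOf_eq_one _
  have := (ZMod.natCast_eq_natCast_iff' _ _ _).mp h1
  rwa [Nat.mod_eq_of_lt hp] at this

/-- Version with a bounded range of exponents, suitable for `decide`. -/
theorem orderOf_pow_gt_of_forall_Icc {p B q L : ℕ} (hp : p.Prime) (hq : q.Prime) (hqp : q ≠ p)
    (hL : B < 2 ^ L)
    (h : ∀ f ∈ Finset.Icc 1 L, q ^ f ≤ B → q ^ f % p ≠ 1) : B < q ^ orderOf (q : ZMod p) := by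
  refine orderOf_pow_gt_of_forall hp.one_lt ((Nat.coprime_primes hq hp).mpr hqp) ?_
  intro f hf hfB
  refine h f (Finset.mem_Icc.mpr ⟨hf, ?_⟩) hfB
  by_contra hcon
  push Not at hcon
  have h1 : 2 ^ L ≤ q ^ f :=
    (Nat.pow_le_pow_left hq.two_le L).trans (Nat.pow_le_pow_right hq.pos hcon.le)
  omega

variable (p : ℕ) [hp : Fact p.Prime] (K : Type) [Field K] [NumberField K]
  [hK : IsCyclotomicExtension {p} ℚ K]

theorem geom_sum_zetaInt : ∑ i ∈ Finset.range p, (zetaInt p K) ^ i = 0 := by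
  have h := (zeta_spec p ℚ K).toInteger_isPrimitiveRoot
  exact h.geom_sum_eq_zero hp.out.one_lt

/-- Degree one certificate: `(q, ζ - r) = (α)`. -/
theorem exists_principal_primesOver_of_root (q : ℕ) [hq : Fact q.Prime] (r : ℤ)
    (hr : ∑ i ∈ Finset.range p, (r : ZMod q) ^ i = 0)
    (α β γ u v : 𝓞 K) (h1 : α * β = (q : 𝓞 K)) (h2 : α * γ = zetaInt p K - (r : 𝓞 K))
    (h3 : α = (q : 𝓞 K) * u + (zetaInt p K - (r : 𝓞 K)) * v) :
    ∃ P ∈ primesOver (span {(q : ℤ)}) (𝓞 K), Submodule.IsPrincipal P := by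
  refine exists_principal_primesOver p K q (X - C r) (monic_X_sub_C r) ?_ ?_ α ?_
  · rw [Polynomial.map_sub, map_X, map_C]
    exact irreducible_X_sub_C _
  · rw [Polynomial.map_sub, map_X, map_C, dvd_iff_isRoot, cyclotomic_prime, IsRoot.def,
      eval_geom_sum]
    simpa using hr
  · have haeval : aeval (zetaInt p K) (X - C r) = zetaInt p K - (r : 𝓞 K) := by simp
    rw [haeval]
    apply le_antisymm
    · rw [span_le]
      intro x hx
      rcases hx with rfl | hx
      · exact mem_span_singleton.mpr ⟨β, h1.symm⟩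
      · rw [Set.mem_singleton_iff] at hx
        subst hx
        exact mem_span_singleton.mpr ⟨γ, h2.symm⟩
    · rw [span_singleton_le_iff_mem, mem_span_pair]
      exact ⟨u, v, by rw [h3]; ring⟩

end Fermat.Agent.Kummer
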